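import Mathlib
import Fermat.Agent.CFT.SymInst

set_option linter.unusedSectionVars false
set_option linter.unusedVariables false
set_option linter.style.haveILetI false
set_option autoImplicit false

/-!
# The symbol data of a number field containing `i`, for `p = 2`
-/

open NumberField IsDedekindDomain nonZeroDivisors Pointwise

namespace Fermat.Agent.CFT

open Fermat.Agent.LocalF (sym sym_eq_zero_iff Z1_map_mul sym_apply)
open Fermat.Agent.Frob (below mem_below)
open Loc (levU PA lp3 lp3_prod index_PA_eq exists_eq_smul_padicPlace)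

local notation "Om" => AlgebraicClosure ℚ

/-- either `p` is odd or the field contains `i` -/
def GoodP (p : ℕ) (K : Type*) [Field K] : Prop := 2 < p ∨ ∃ i : K, i ^ 2 = -1

section Infinite

variable {K : Type*} [Field K] [NumberField K] {p : ℕ}

theorem isTotallyComplex_of_i {i : K} (hi : i ^ 2 = -1) : IsTotallyComplex K where
  isComplex := by
    intro w
    by_contra hw
    rw [InfinitePlace.not_isComplex_iff_isReal] at hw
    have h1 : (w.embedding_of_isReal hw i) ^ 2 = -1 := by
      rw [← map_pow, hi, map_neg, map_one]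
    nlinarith [sq_nonneg (w.embedding_of_isReal hw i)]

theorem finrank_eq_two_mul_card₂ {ζ : K} (hζ : IsPrimitiveRoot ζ p) (hp : GoodP p K) :
    Module.finrank ℚ K = 2 * Fintype.card (InfinitePlace K) := by
  rcases hp with hp | ⟨i, hi⟩
  · exact finrank_eq_two_mul_card hζ hp
  haveI := isTotallyComplex_of_i hi
  rw [IsTotallyComplex.finrank (K := K), InfinitePlace.card_eq_nrRealPlaces_add_nrComplexPlaces,
    IsTotallyComplex.nrRealPlaces_eq_zero, zero_add]

theorem card_infinitePlace_eq_mul₂ {L M : Type*} [Field L] [NumberField L] [Field M] [NumberField M]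
    [Algebra L M] {ζ : L} (hζ : IsPrimitiveRoot ζ p) (hp : GoodP p L) :
    Fintype.card (InfinitePlace M) = Module.finrank L M * Fintype.card (InfinitePlace L) := by
  have h1 := finrank_eq_two_mul_card₂ hζ hp
  have hpM : GoodP p M := by
    rcases hp with hp | ⟨i, hi⟩
    · exact Or.inl hp
    · exact Or.inr ⟨algebraMap L M i, by rw [← map_pow, hi, map_neg, map_one]⟩
  have h2 := finrank_eq_two_mul_card₂ (hζ.map_of_injective (algebraMap L M).injective) hpM
  have h3 := Module.finrank_mul_finrank ℚ L M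
  have h4 : 2 * Fintype.card (InfinitePlace M) =
      2 * (Module.finrank L M * Fintype.card (InfinitePlace L)) := by
    rw [← h2, ← h3, h1]; ring
  omega

end Infinite

section Norm

variable {p : ℕ} [hp : Fact p.Prime] {L : IntermediateField ℚ Om} [FiniteDimensional ℚ L]
variable {ζ : Om} (hζ : IsPrimitiveRoot ζ p) (hζL : ζ ∈ L)

include hζ hζL in
/-- the norm subspace of `V_T` attached to `x`. -/
theorem exists_norm_field₂ (hp2 : GoodP p L) {x : KP p L} (hx : x ≠ 0) {T : Set (HeightOneSpectrum (𝓞 L))}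
    (hT : T.Finite) (hcl : ClTriv T) (hTp : Tp L p ⊆ T) (hxT : x ∈ VT T) :
    ∃ N : Submodule (ZMod p) (KP p L), N ≤ VT T ∧
      (∀ y ∈ N, sym (LL L) p (kum hζ hζL x) (kum hζ hζL y) = 0) ∧
      FiniteDimensional (ZMod p) N ∧
      Module.finrank (ZMod p) N +
        {v | v ∈ T ∧ ∃ g : L.fixingSubgroup, (g : Om ≃ₐ[ℚ] Om) ∈ (Av v).decompositionSubgroup ℚ ∧
          (kum hζ hζL x : L.fixingSubgroup → ZMod p) g ≠ 0}.ncard =
        T.ncard + Fintype.card (InfinitePlace L) + 1 := by
  obtain ⟨y, rfl⟩ := kp_surjective p L x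
  set α : Om := root p y with hα
  have hα0 : α ≠ 0 := root_ne_zero y
  set y' : L := ((Additive.toMul y : Lˣ) : L) with hy'
  have hy0 : y' ≠ 0 := (Additive.toMul y).ne_zero
  let M : IntermediateField L Om := IntermediateField.adjoin L {α}
  let α' : M := ⟨α, IntermediateField.mem_adjoin_simple_self L α⟩
  let ζ' : L := ⟨ζ, hζL⟩
  have hζ' : IsPrimitiveRoot ζ' p := IsPrimitiveRoot.of_map_of_injective (f := algebraMap L Om)
    (by exact hζ) (algebraMap L Om).injective
  have hxp : ∀ b : L, b ^ p ≠ y' := by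
    intro b hb
    apply hx
    have hb0 : b ≠ 0 := by
      rintro rfl
      rw [zero_pow hp.out.ne_zero] at hb
      exact hy0 hb.symm
    rw [kp_eq_zero_iff]
    refine ⟨Additive.ofMul (Units.mk0 b hb0), ?_⟩
    apply Additive.toMul.injective
    apply Units.ext
    exact hb
  have hα' : α' ^ p = algebraMap L M y' := by
    apply Subtype.ext
    exact root_pow y
  have htop : IntermediateField.adjoin L {α'} = ⊤ := adjoin_gen_eq_top α
  haveI := kummer_isGalois hζ' hxp hα' htop
  have hd := kummer_finrank hζ' hxp hα' htop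
  -- ramification
  have hur : ∀ w : HeightOneSpectrum (𝓞 M), under L w ∉ T →
      (under L w).asIdeal.ramificationIdx' w.asIdeal = 1 := by
    intro w hw
    refine kummer_ramificationIdx_eq_one hζ' hxp hα' htop w ?_ hy0 ?_
    · intro h
      apply hw
      apply hTp
      change ((p : ℕ) : 𝓞 L) ∈ w.asIdeal.under (𝓞 L)
      rw [Ideal.mem_comap, map_natCast]
      exact h
    · have h1 := hxT _ hw
      rw [ordp_kp_eq_zero_iff] at h1
      have h2 : Additive.ofMul (Units.mk0 y' hy0) = y := by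
        apply Additive.toMul.injective
        apply Units.ext
        rfl
      rw [h2]
      exact h1
  have hinf : Fintype.card (InfinitePlace M) = p * Fintype.card (InfinitePlace L) := by
    rw [card_infinitePlace_eq_mul₂ (L := L) (M := M) hζ' hp2, hd]
  obtain ⟨N, hN1, hN2, hN3, hN4⟩ := exists_norm_subspace hd hT hcl hur hinf hζ'
  refine ⟨N, hN1, ?_, hN3, ?_⟩
  · -- norms have trivial symbol
    intro n hn
    obtain ⟨z, rfl⟩ := hN2 n hn
    -- the character
    have hκ0 : kum hζ hζL (kp p L y) ≠ 0 := fun h => hx (kum_injective hζ hζL (by rw [h, map_zero]))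
    obtain ⟨σ, hσ⟩ := Fermat.Agent.LocalF.exists_eq_one hκ0
    rw [sym_eq_zero_iff]
    set β : Om := root p (normA L M z) with hβ
    have hβeq : ((kum hζ hζL (kp p L (normA L M z)) : Z1 (LL L) (triv p L.fixingSubgroup)) :
        L.fixingSubgroup → ZMod p) = kummer p ζ β := rfl
    rw [hβeq]
    refine (cup_mem_B2_iff hζ (isGal_Om.restrict _) (mem_iff_fixed.1 hζL) (hdiv_Om hp.out.ne_zero)
      (kum hζ hζL (kp p L y)).2.1 (Z1_map_mul _)
      (Fermat.Agent.LocalF.mem_kerZ1 (kum hζ hζL (kp p L y))) hσ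
      (root_ne_zero _) (smul_root_pow _)).2 ?_
    -- the restriction of `σ` to `M`
    obtain ⟨σ', hσ'⟩ : ∃ σ' : Om ≃ₐ[L] Om, ∀ t, σ' t = (σ : Om ≃ₐ[ℚ] Om) t :=
      ⟨AlgEquiv.ofRingEquiv (f := ((σ : Om ≃ₐ[ℚ] Om) : Om ≃+* Om))
        (fun t => smul_coe_of_mem σ t), fun t => rfl⟩
    let τ : Gal(M/L) := σ'.restrictNormal M
    have hτ : ∀ t : M, ((τ t : M) : Om) = (σ : Om ≃ₐ[ℚ] Om) (t : Om) := fun t => by
      rw [← hσ']
      exact AlgEquiv.restrictNormal_commutes σ' M t
    have hτpow : ∀ (i : ℕ) (t : M), (((τ ^ i) t : M) : Om) = (σ ^ i) • (t : Om) := by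
      intro i
      induction i with
      | zero => intro t; rw [pow_zero, pow_zero, one_smul]; rfl
      | succ i ih =>
        intro t
        rw [pow_succ, pow_succ, AlgEquiv.mul_apply, ih, hτ, mul_smul]
        rfl
    have hτ1 : τ ≠ 1 := by
      intro h
      have h1 := hτ α'
      rw [h] at h1
      have h2 : σ • α = α := h1.symm
      have h3 : kummer p ζ α σ = 0 := kummer_of_fixed hζ hα0 h2
      rw [show kummer p ζ α σ = 1 from hσ] at h3
      exact one_ne_zero h3
    have hgen : ∀ g, g ∈ Subgroup.zpowers τ := by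
      intro g
      have hc : Nat.card Gal(M/L) = p := by rw [IsGalois.card_aut_eq_finrank, hd]
      exact mem_zpowers_of_prime_card hc hτ1
    refine ⟨((Additive.toMul z : Mˣ) : M), ?_, ?_⟩
    · intro g hg
      have hg1 : kummer p ζ α g = 0 := hg
      have hg2 : g • α = α := (kummer_eq_zero_iff hζ hα0 (smul_root_pow y g)).1 hg1
      have h1 : ∀ t ∈ M, g • t = t := by
        intro t ht
        have h2 : M ≤ IntermediateField.fixedField (Subgroup.zpowers
            (AlgEquiv.ofRingEquiv (f := ((g : Om ≃ₐ[ℚ] Om) : Om ≃+* Om))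
              (fun t => smul_coe_of_mem g t) : Om ≃ₐ[L] Om)) := by
          rw [IntermediateField.adjoin_le_iff, Set.singleton_subset_iff]
          set γ : Om ≃ₐ[L] Om := AlgEquiv.ofRingEquiv (f := ((g : Om ≃ₐ[ℚ] Om) : Om ≃+* Om))
              (fun t => smul_coe_of_mem g t) with hγ
          rintro ⟨h, hh⟩
          have hγα : γ • α = α := hg2
          have hst : γ ∈ MulAction.stabilizer (Om ≃ₐ[L] Om) α := hγα
          exact ((Subgroup.zpowers_le.2 hst) hh)
        exact (h2 ht) ⟨_, Subgroup.mem_zpowers _⟩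
      exact h1 _ ((Additive.toMul z : Mˣ) : M).2
    · have h1 := inclA_normA (p := p) hd hgen z
      have h2 := congrArg (fun t : Additive Mˣ => (((Additive.toMul t : Mˣ) : M) : Om)) h1
      have h3 : β ^ p = (((Additive.toMul (inclA L M (normA L M z)) : Mˣ) : M) : Om) := by
        rw [hβ, root_pow]
        rfl
      refine Eq.trans ?_ (h3.trans h2).symm
      rw [toMul_sum, Units.coe_prod]
      change _ = algebraMap M Om _
      rw [map_prod]
      refine Finset.prod_congr rfl fun i _ => ?_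
      rw [← sg_pow, coe_sg]
      exact (hτpow i _).symm
  · rw [← hN4]
    congr 2
    ext v
    simp only [Set.mem_ofPred_eq]
    refine and_congr_right fun _ => ?_
    rw [gNum_eq_one_iff hζ' hxp hα' htop (lv_prime v) (Av_lies v) (placeBelow_Av v)]
    constructor
    · rintro ⟨g, hg1, hg2⟩
      refine ⟨g, ⟨hg1, g.2⟩, ?_⟩
      intro h
      apply hg2
      exact kummer_of_fixed hζ hα0 h
    · rintro ⟨g, ⟨hg1, hg2⟩, hg3⟩
      refine ⟨⟨g, hg2⟩, hg1, ?_⟩
      intro h
      apply hg3
      exact (kummer_eq_zero_iff hζ hα0 (smul_root_pow y ⟨g, hg2⟩)).1 h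


theorem sym_self_of_i (hp2 : p = 2) {i : L} (hi : i ^ 2 = -1) (x : KP p L) :
    sym (LL L) p (kum hζ hζL x) (kum hζ hζL x) = 0 := by
  by_cases hx : x = 0
  · rw [hx, map_zero, map_zero]
  subst hp2
  obtain ⟨y, rfl⟩ := kp_surjective 2 L x
  have hκ0 : kum hζ hζL (kp 2 L y) ≠ 0 := fun h => hx (kum_injective hζ hζL (by rw [h, map_zero]))
  obtain ⟨σ, hσ⟩ := Fermat.Agent.LocalF.exists_eq_one hκ0
  rw [sym_eq_zero_iff]
  set β : Om := root 2 y with hβ
  have hβ0 : β ≠ 0 := root_ne_zero y
  have hβeq : ((kum hζ hζL (kp 2 L y) : Z1 (LL L) (triv 2 L.fixingSubgroup)) :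
      L.fixingSubgroup → ZMod 2) = kummer 2 ζ β := rfl
  have h1 := (cup_mem_B2_iff hζ (isGal_Om.restrict _) (mem_iff_fixed.1 hζL)
    (hdiv_Om (p := 2) two_ne_zero)
    (kum hζ hζL (kp 2 L y)).2.1 (Z1_map_mul _)
    (Fermat.Agent.LocalF.mem_kerZ1 (kum hζ hζL (kp 2 L y))) hσ
    (root_ne_zero _) (smul_root_pow _) (β := β)).2 ?_
  · exact h1
  refine ⟨(i : Om) * β, ?_, ?_⟩
  · intro g hg
    have hg1 : kummer 2 ζ β g = 0 := hg
    have hg2 : g • β = β := (kummer_eq_zero_iff hζ hβ0 (smul_root_pow y g)).1 hg1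
    rw [smul_mul', hg2]
    congr 1
    exact mem_iff_fixed.1 i.2 g
  · have hi' : (i : Om) ^ 2 = -1 := by
      have := congrArg (Subtype.val) hi
      simpa using this
    have h2 : σ • (i : Om) = i := mem_iff_fixed.1 i.2 σ
    have h3 : (σ • β) ^ 2 = β ^ 2 := by rw [← smul_pow']; exact smul_root_pow y σ
    have h4 : σ • β ≠ β := by
      intro h
      have h5 : kummer 2 ζ β σ = 0 := kummer_of_fixed hζ hβ0 h
      rw [show kummer 2 ζ β σ = 1 from hσ] at h5
      exact one_ne_zero h5
    have h5 : σ • β = -β := by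
      rcases sq_eq_sq_iff_eq_or_eq_neg.1 h3 with h | h
      · exact absurd h h4
      · exact h
    rw [Finset.prod_range_succ, Finset.prod_range_one, pow_zero, one_smul, pow_one, smul_mul', h2, h5]
    linear_combination (-β ^ 2) * hi'

theorem sv_self₂ (hp2 : GoodP p L) (v : HeightOneSpectrum (𝓞 L)) (x : KP p L) :
    sv hζ hζL v x x = 0 := by
  by_cases h2 : p = 2
  · rcases hp2 with h | ⟨i, hi⟩
    · omega
    · rw [sv_apply, sym_self_of_i hζ hζL h2 hi, map_zero]
  · exact sv_self hζ hζL h2 v x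

theorem sum_finrank_sv₂ (T0 : Finset (HeightOneSpectrum (𝓞 L))) (h : TpF (p := p) L ⊆ T0)
    (hp2 : GoodP p L) :
    ∑ v ∈ T0, Module.finrank (ZMod p) (LinearMap.range (sv hζ hζL v)) =
      2 * (T0.card + Fintype.card (InfinitePlace L)) := by
  classical
  have hζ' : IsPrimitiveRoot (⟨ζ, hζL⟩ : L) p :=
    IsPrimitiveRoot.of_map_of_injective (f := algebraMap L Om) (by exact hζ)
      (algebraMap L Om).injective
  have h1 := finrank_eq_two_mul_card₂ hζ' hp2
  rw [← Finset.sum_sdiff h, sum_finrank_sv_Tp hζ hζL, h1]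
  rw [Finset.sum_congr rfl (g := fun _ => 2) fun v hv => finrank_range_sv hζ hζL
    (fun hvT => (Finset.mem_sdiff.1 hv).2 (mem_TpF.2 hvT))]
  rw [Finset.sum_const, smul_eq_mul, Finset.card_sdiff_of_subset h]
  have := Finset.card_le_card h
  omega

/-- the symbol data of `L` -/
noncomputable def symData₂ (hp2 : GoodP p L) : SymData p (KP p L) (HeightOneSpectrum (𝓞 L)) where
  s := sv hζ hζL
  ord := ordp
  Tp := TpF L
  T0 := (exists_T0F (p := p) (L := L)).choose
  Tp_subset := (exists_T0F (p := p) (L := L)).choose_spec.1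
  r := Fintype.card (InfinitePlace L)
  r_pos := Fintype.card_pos
  alt := fun v x => sv_self₂ hζ hζL hp2 v x
  fin_ord := finite_ordp_ne_zero
  s_eq_zero_of_ord := fun v hv x y hx hy =>
    sv_eq_zero_of_ord hζ hζL (fun h => hv (mem_TpF.2 h)) hx hy
  ord_eq_zero := fun v hv x h => ordp_eq_zero_of_sv hζ hζL v h
  fin_range := fin_range_sv hζ hζL
  finrank_range := fun v hv => finrank_range_sv hζ hζL (fun h => hv (mem_TpF.2 h))
  sum_finrank_range := sum_finrank_sv₂ hζ hζL _ (exists_T0F (p := p) (L := L)).choose_spec.1 hp2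
  s_ne_zero := sv_ne_zero hζ hζL
  approx := exists_approx hζ hζL
  cl := by
    intro v hv
    obtain ⟨x, h1, h2⟩ := (exists_T0F (p := p) (L := L)).choose_spec.2 v
    refine ⟨kp p L (Additive.ofMul x), ?_, fun w hw hwv => ?_⟩
    · rw [ordp_kp, h1 hv]; simp
    · rw [ordp_kp, h2 w hw hwv]; simp
  Nm := fun x => LinearMap.ker ((sym (LL L) p (kum hζ hζL x)) ∘ₗ (kum hζ hζL))
  Nm_zero := by
    rw [map_zero, map_zero, LinearMap.zero_comp, LinearMap.ker_zero]
  s_Nm := by
    intro x y hy v
    rw [sv_apply]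
    have : sym (LL L) p (kum hζ hζL x) (kum hζ hζL y) = 0 := hy
    rw [this, map_zero]
  finV0 := by
    have hζ' : IsPrimitiveRoot (⟨ζ, hζL⟩ : L) p :=
      IsPrimitiveRoot.of_map_of_injective (f := algebraMap L Om) (by exact hζ)
        (algebraMap L Om).injective
    rw [iInf_ker_eq_VT]
    exact (finrank_VT (exists_T0F (p := p) (L := L)).choose_spec.2 (Finset.finite_toSet _) hζ').1
  finrankV0 := by
    have hζ' : IsPrimitiveRoot (⟨ζ, hζL⟩ : L) p :=
      IsPrimitiveRoot.of_map_of_injective (f := algebraMap L Om) (by exact hζ)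
        (algebraMap L Om).injective
    rw [iInf_ker_eq_VT, (finrank_VT (exists_T0F (p := p) (L := L)).choose_spec.2
      (Finset.finite_toSet _) hζ').2, Set.ncard_coe_finset]
  norm := by
    intro x hx T hT hxT
    obtain ⟨N, hN1, hN2, -, hN4⟩ := exists_norm_field₂ hζ hζL hp2 hx (T := (T : Set _))
      T.finite_toSet
      ((exists_T0F (p := p) (L := L)).choose_spec.2.mono (Finset.coe_subset.2 hT))
      (fun v hv => Finset.mem_coe.2 (hT ((exists_T0F (p := p) (L := L)).choose_spec.1
        (mem_TpF.2 hv)))) (mem_VT.2 fun v hv => hxT v (by simpa using hv))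
    refine ⟨N, fun y hy => hN2 y hy, fun y hy v hv => mem_VT.1 (hN1 hy) v (by simpa using hv), ?_⟩
    rw [Set.ncard_coe_finset] at hN4
    rw [← hN4]
    congr 2
    ext v
    simp only [Set.mem_ofPred_eq, Finset.mem_coe, and_congr_right_iff]
    intro hv
    rw [Ne, sv_eq_zero_iff_van, VanAt]
    push Not
    rfl
  cheb := by
    intro x y hy F
    obtain ⟨v, hv, h1, h2⟩ := exists_place_van hζ hζL hy (F : Set _) F.finite_toSet
    exact ⟨v, by simpa using hv, (sv_eq_zero_iff_van hζ hζL v x).2 h1,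
      fun h => h2 ((sv_eq_zero_iff_van hζ hζL v y).1 h)⟩

/-- **Hasse norm theorem** -/
theorem hasseNorm₂ (hp2 : GoodP p L) : HasseNorm hζ L hζL := by
  intro x y h
  exact (symData₂ hζ hζL hp2).mem_Nm h


end Norm

end Fermat.Agent.CFT
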