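import Mathlib
import Fermat.Agent.CFT.Two.Sym
import Fermat.Agent.CFT.GlobH

set_option linter.unusedSectionVars false
set_option linter.unusedVariables false
set_option linter.style.haveILetI false
set_option autoImplicit false

/-!
# The Hasse principle for `H²(G_L, ℤ/2)` when `i ∈ L`
-/

open NumberField IsDedekindDomain nonZeroDivisors Pointwise

namespace Fermat.Agent.CFT

open Fermat.Agent.LocalF (sym sym_eq_zero_iff Z1_map_mul sym_apply)
open Fermat.Agent.Frob (below mem_below)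
open Loc (levU)

local notation "Om" => AlgebraicClosure ℚ

section Hasse

variable {p : ℕ} [hp : Fact p.Prime] {ζ : Om} (hζ : IsPrimitiveRoot ζ p)

theorem hasse_tower₂ {P₀ : Subgroup (Om ≃ₐ[ℚ] Om)}
    (hHN : ∀ (L : IntermediateField ℚ Om) [FiniteDimensional ℚ L] (hζL : ζ ∈ L),
    L.fixingSubgroup ≤ P₀ → HasseNorm hζ L hζL) (n : ℕ) :
    ∀ (U N : Subgroup (Om ≃ₐ[ℚ] Om)), U ≤ P₀ → U ∈ galLevels ℚ Om → (∀ g ∈ U, g ζ = ζ) →
      N ∈ galLevels ℚ Om → N ≤ U → N.Normal → N.relIndex U = p ^ n →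
      ∀ f : (Om ≃ₐ[ℚ] Om) → (Om ≃ₐ[ℚ] Om) → ZMod p, ZOn (galLevels ℚ Om) U f → LT U f →
        DOn (galLevels ℚ Om) N f → DOn (galLevels ℚ Om) U f := by
  induction n with
  | zero =>
    intro U N hUP hU hUζ hN hNU hn hidx f hz hlt hd
    rw [pow_zero, Subgroup.relIndex_eq_one] at hidx
    exact hd.mono hidx
  | succ n ih =>
    intro U N hUP hU hUζ hN hNU hn hidx f hz hlt hd
    obtain ⟨L, hL, rfl⟩ := exists_field_of_mem hU
    have hζL : ζ ∈ L := mem_iff_fixed.2 fun g => hUζ g g.2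
    haveI : (N.subgroupOf L.fixingSubgroup).Normal := inferInstance
    obtain ⟨κ, hκm, hκN, σ, hσ⟩ := Fermat.Agent.LocalF.exists_char (p := p)
      (N := N.subgroupOf L.fixingSubgroup) hidx
    have hκ : (LL L).LC κ := ⟨_, ⟨N, hN, le_rfl⟩, fun g s hs => by rw [hκm, hκN s hs, add_zero]⟩
    let H : Subgroup L.fixingSubgroup :=
      Fermat.Agent.LocalF.kerZ1 (𝓛 := LL L) (p := p)
        ⟨κ, hκ, fun g h => (hκm g h).trans (add_comm _ _)⟩
    have hH : ∀ g, g ∈ H ↔ κ g = 0 := fun g => Iff.rfl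
    have hNH : N ≤ H.map L.fixingSubgroup.subtype := by
      intro g hg
      exact ⟨⟨g, hNU hg⟩, (hH _).2 (hκN _ hg), rfl⟩
    have hHL : H.map L.fixingSubgroup.subtype ≤ L.fixingSubgroup := by
      rintro _ ⟨g, -, rfl⟩
      exact g.2
    have hHidx : (H.map L.fixingSubgroup.subtype).relIndex L.fixingSubgroup = p := by
      have h1 : (H.map L.fixingSubgroup.subtype).relIndex L.fixingSubgroup = H.index := by
        rw [Subgroup.relIndex]
        congr 1
        exact Subgroup.comap_map_eq_self_of_injective Subtype.val_injective H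
      rw [h1]
      let κ' : L.fixingSubgroup →* Multiplicative (ZMod p) :=
        { toFun := fun g => Multiplicative.ofAdd (κ g)
          map_one' := by
            have : κ 1 = 0 := by simpa using hκm 1 1
            rw [this]; rfl
          map_mul' := fun g h => by rw [hκm]; rfl }
      have hker : H = κ'.ker := by
        ext g
        rw [hH, MonoidHom.mem_ker]
        exact Iff.rfl
      have hsurj : Function.Surjective κ' := by
        intro c
        refine ⟨σ ^ (Multiplicative.toAdd c).val, ?_⟩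
        change Multiplicative.ofAdd (κ (σ ^ (Multiplicative.toAdd c).val)) = c
        rw [Fermat.Agent.LocalF.char_pow hκm, hσ]
        simp
      rw [hker, Subgroup.index_ker, MonoidHom.range_eq_top.2 hsurj, Subgroup.card_top,
        Nat.card_congr Multiplicative.toAdd, Nat.card_zmod]
    have hidx' : N.relIndex (H.map L.fixingSubgroup.subtype) = p ^ n := by
      have h1 := Subgroup.relIndex_mul_relIndex N (H.map L.fixingSubgroup.subtype)
        L.fixingSubgroup hNH hHL
      rw [hHidx, hidx, pow_succ] at h1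
      exact Nat.eq_of_mul_eq_mul_right hp.out.pos h1
    have hd' := ih (H.map L.fixingSubgroup.subtype) N (hHL.trans hUP) (Levels.up_mem hN hNH)
      (fun g hg => hUζ g (hHL hg)) hN hNH hn hidx' f (hz.mono hHL) (hlt.mono hHL) hd
    exact hasse_step hζ hζL (hHN L hζL hUP) hz hlt hκ hκm hσ hH hd'

/-- **Hasse principle**, cochain version. -/
theorem hasse_cochain₂ {P₀ : Subgroup (Om ≃ₐ[ℚ] Om)}
    (hHN : ∀ (L : IntermediateField ℚ Om) [FiniteDimensional ℚ L] (hζL : ζ ∈ L),
    L.fixingSubgroup ≤ P₀ → HasseNorm hζ L hζL) (U : Subgroup (Om ≃ₐ[ℚ] Om)) (hUP : U ≤ P₀)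
    (hU : U ∈ galLevels ℚ Om)
    (hUζ : ∀ g ∈ U, g ζ = ζ) (f : (Om ≃ₐ[ℚ] Om) → (Om ≃ₐ[ℚ] Om) → ZMod p)
    (hz : ZOn (galLevels ℚ Om) U f) (hlt : LT U f) : DOn (galLevels ℚ Om) U f := by
  obtain ⟨N, hN, hNU, hn, hd⟩ := hz.exists_level hU
  haveI := Levels.finiteIndex hN
  haveI : (N.subgroupOf U).Normal := inferInstance
  haveI : (N.subgroupOf U).FiniteIndex := inferInstance
  haveI : Finite (U ⧸ N.subgroupOf U) := Subgroup.finite_quotient_of_finiteIndex
  -- Sylow subgroup
  obtain ⟨P⟩ : Nonempty (Sylow p (U ⧸ N.subgroupOf U)) := inferInstance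
  let V' : Subgroup U := (P : Subgroup (U ⧸ N.subgroupOf U)).comap (QuotientGroup.mk' _)
  let V : Subgroup (Om ≃ₐ[ℚ] Om) := V'.map U.subtype
  have hVU : V ≤ U := by
    rintro _ ⟨g, -, rfl⟩
    exact g.2
  have hNV' : N.subgroupOf U ≤ V' := by
    intro g hg
    change (QuotientGroup.mk' (N.subgroupOf U)) g ∈ (P : Subgroup (U ⧸ N.subgroupOf U))
    have : (QuotientGroup.mk' (N.subgroupOf U)) g = 1 := (QuotientGroup.eq_one_iff g).2 hg
    rw [this]
    exact one_mem _
  have hNV : N ≤ V := by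
    intro g hg
    exact ⟨⟨g, hNU hg⟩, hNV' hg, rfl⟩
  have hVidx : V.relIndex U = (P : Subgroup (U ⧸ N.subgroupOf U)).index := by
    have h1 : V.relIndex U = V'.index := by
      rw [Subgroup.relIndex]
      congr 1
      exact Subgroup.comap_map_eq_self_of_injective Subtype.val_injective V'
    rw [h1]
    exact Subgroup.index_comap_of_surjective _ (QuotientGroup.mk'_surjective _)
  have hVp : ¬ p ∣ V.relIndex U := by
    rw [hVidx]
    exact P.not_dvd_index
  obtain ⟨n, hn'⟩ := (IsPGroup.iff_card.1 P.isPGroup')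
  have hNVidx : N.relIndex V = p ^ n := by
    have h1 := Subgroup.relIndex_mul_relIndex N V U hNV hVU
    have h2 : N.relIndex U = Nat.card (U ⧸ N.subgroupOf U) := rfl
    have h3 := (P : Subgroup (U ⧸ N.subgroupOf U)).card_mul_index
    rw [hVidx, h2, ← h3] at h1
    have h4 : (P : Subgroup (U ⧸ N.subgroupOf U)).index ≠ 0 := Subgroup.index_ne_zero_of_finite
    have h5 := Nat.eq_of_mul_eq_mul_right (Nat.pos_of_ne_zero h4) h1
    rw [h5]
    exact hn'
  have hdV := hasse_tower₂ hζ hHN n V N (hVU.trans hUP) (Levels.up_mem hN hNV) (fun g hg => hUζ g (hVU hg)) hN hNV hn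
    hNVidx f (hz.mono hVU) (hlt.mono hVU) hd
  exact DOn.of_index (Levels.up_mem hN hNV) hVU hVp hz hdV


include hζ in
/-- **Hasse principle** over fields containing `i` -/
theorem hasse_two {i : Om} (hi : i ^ 2 = -1) (U : Subgroup (Om ≃ₐ[ℚ] Om))
    (hU : U ∈ galLevels ℚ Om) (hUζ : ∀ g ∈ U, g ζ = ζ) (hUi : ∀ g ∈ U, g i = i)
    (f : (Om ≃ₐ[ℚ] Om) → (Om ≃ₐ[ℚ] Om) → ZMod p)
    (hz : ZOn (galLevels ℚ Om) U f) (hlt : LT U f) : DOn (galLevels ℚ Om) U f := by
  refine hasse_cochain₂ hζ (P₀ := U) (fun L _ hζL hLU => ?_) U le_rfl hU hUζ f hz hlt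
  refine hasseNorm₂ hζ hζL (Or.inr ⟨⟨i, ?_⟩, ?_⟩)
  · exact mem_iff_fixed.2 fun g => hUi g (hLU g.2)
  · apply Subtype.ext
    simpa using hi

end Hasse

end Fermat.Agent.CFT
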