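import Mathlib
import Fermat.Agent.CFT.Two.Hasse

set_option linter.unusedSectionVars false
set_option linter.unusedVariables false
set_option linter.style.haveILetI false
set_option autoImplicit false

/-!
# Classes which die over `L(i)`
-/

open NumberField IsDedekindDomain nonZeroDivisors Pointwise

namespace Fermat.Agent.CFT

open Fermat.Agent.LocalF (sym sym_eq_zero_iff Z1_map_mul sym_apply)
open Fermat.Agent.Frob (below mem_below)
open Loc (levU lp1 lp2)

local notation "Om" => AlgebraicClosure ℚ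

section

variable {p : ℕ} [hp : Fact p.Prime] {L : IntermediateField ℚ Om} [FiniteDimensional ℚ L]
variable {ζ : Om} (hζ : IsPrimitiveRoot ζ p) (hζL : ζ ∈ L)

/-- symbols with a fixed first entry, from the Hasse principle for the Kummer extension -/
theorem exists_sym_glob₂ {i : Om} (hi : i ^ 2 = -1) (x : KP p L)
    (hxi : ∀ g : L.fixingSubgroup, (kum hζ hζL x : L.fixingSubgroup → ZMod p) g = 0 →
      (g : Om ≃ₐ[ℚ] Om) i = i) (hx : x ≠ 0)
    (α : H2 (LL L) (triv p L.fixingSubgroup))
    (h : ∀ v, sv hζ hζL v x = 0 → locv hζ hζL v α = 0) :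
    ∃ y, α = sym (LL L) p (kum hζ hζL x) (kum hζ hζL y) := by
  have hκ : kum hζ hζL x ≠ 0 := fun h' => hx (kum_injective hζ hζL (by rw [h', map_zero]))
  obtain ⟨σ, hσ⟩ := Fermat.Agent.LocalF.exists_eq_one hκ
  obtain ⟨y, rfl⟩ := H2.mk_surjective _ _ α
  have hz : ZOn (galLevels ℚ Om) L.fixingSubgroup (extz L.fixingSubgroup
      (y : L.fixingSubgroup → L.fixingSubgroup → ZMod p)) := ZOn_extz.2 y.2
  have hy : y = ⟨_, hz⟩ := Subtype.ext (extz_eq _ _).symm
  set f := extz L.fixingSubgroup (y : L.fixingSubgroup → L.fixingSubgroup → ZMod p) with hf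
  set H : Subgroup L.fixingSubgroup := Fermat.Agent.LocalF.kerZ1 (kum hζ hζL x) with hHdef
  have hH : ∀ g, g ∈ H ↔ (kum hζ hζL x : L.fixingSubgroup → ZMod p) g = 0 := fun g => Iff.rfl
  have hHle : H.map L.fixingSubgroup.subtype ≤ L.fixingSubgroup := by
    rintro _ ⟨g, -, rfl⟩
    exact g.2
  have hHlev : H.map L.fixingSubgroup.subtype ∈ galLevels ℚ Om := by
    rw [← Levels.mem_restrict_iff_map (fixingSubgroup_mem_galLevels L)]
    exact Fermat.Agent.LocalF.kerZ1_mem _
  have hd : DOn (galLevels ℚ Om) (H.map L.fixingSubgroup.subtype) f := by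
    refine hasse_two hζ hi _ hHlev
      (fun g hg => mem_iff_fixed.1 hζL ⟨g, hHle hg⟩) (fun g hg => ?_) _ (hz.mono hHle) ?_
    · obtain ⟨g', hg', rfl⟩ := hg
      exact hxi g' hg'
    intro ℓ hℓ A hA
    set v := placeBelow L A hℓ hA with hv
    by_cases hsv : sv hζ hζL v x = 0
    · refine (DOn_of_locv hζ hζL hz hℓ hA ?_).mono (inf_le_inf_left _ hHle)
      rw [← hy]
      exact h _ hsv
    · -- the local `H²` is spanned by a symbol with first entry `x`
      obtain ⟨g, hg⟩ := exists_smul_eq_of_placeBelow (L := L) (A := A) (A' := Av v) hℓ hA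
        (by rw [below_Av]; rfl)
      obtain ⟨b, hb⟩ : ∃ b : KP p L, resAt p L A (sym (LL L) p (kum hζ hζL x) (kum hζ hζL b)) ≠ 0 := by
        by_contra hcon
        push Not at hcon
        apply hsv
        rw [sv_eq_zero_iff_van, hg, vanAt_smul (Z1_map_mul _) g]
        obtain ⟨x, rfl⟩ := kp_surjective p L x
        rw [vanAt_iff]
        refine lp2 L hζ hζL hℓ hA (root_ne_zero x) (by rw [root_pow]; exact Subtype.property _)
          (fun w hw0 hw => ?_)
        have hne : (⟨w ^ p, hw⟩ : L) ≠ 0 := by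
          intro h
          exact pow_ne_zero p hw0 (congrArg Subtype.val h)
        have h1 := hcon (kp p L (Additive.ofMul (Units.mk0 ⟨w ^ p, hw⟩ hne)))
        rw [sym_apply, resAt_mk_eq_zero] at h1
        convert h1 using 1
        funext u u'
        have e1 := kumHom_apply hζ hζL (x := Additive.ofMul (Units.mk0 ⟨w ^ p, hw⟩ hne)) (α := w)
          rfl ⟨u', u'.2.2⟩
        change _ = (kum hζ hζL (kp p L x) : L.fixingSubgroup → ZMod p) ⟨u, u.2.2⟩ *
          (kum hζ hζL (kp p L (Additive.ofMul (Units.mk0 ⟨w ^ p, hw⟩ hne))) :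
            L.fixingSubgroup → ZMod p) ⟨u', u'.2.2⟩
        rw [kum_kp, kum_kp, e1]
        rfl
      have h1 := lp1 (p := p) L hζ hζL hℓ hA
      obtain ⟨t, ht⟩ := (finrank_eq_one_iff_of_nonzero' _ hb).1 h1
        (resAt p L A (H2.mk (LL L) (triv p L.fixingSubgroup) y))
      rw [← map_smul, sym_apply, ← map_smul, ← sub_eq_zero, ← map_sub, ← map_sub,
        resAt_mk_eq_zero] at ht
      have ht' : DOn (galLevels ℚ Om) (A.decompositionSubgroup ℚ ⊓ L.fixingSubgroup)
        (extz L.fixingSubgroup fun a b' => t * ((kum hζ hζL x : L.fixingSubgroup → ZMod p) a *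
          (kum hζ hζL b : L.fixingSubgroup → ZMod p) b') -
            (y : L.fixingSubgroup → L.fixingSubgroup → ZMod p) a b') := by
        change (fun a b : _ => _) ∈ _
        convert ht using 1
        funext u u'
        exact extz_apply L.fixingSubgroup _ ⟨u, u.2.2⟩ ⟨u', u'.2.2⟩
      have h2 := ht'.mono (inf_le_inf_left (A.decompositionSubgroup ℚ) hHle)
      have h3 : DOn (galLevels ℚ Om) (A.decompositionSubgroup ℚ ⊓ H.map L.fixingSubgroup.subtype)
          (-f) := by
        refine h2.congr fun a ha b' hb' => ?_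
        obtain ⟨a', ha', rfl⟩ := ha.2
        obtain ⟨b'', hb'', rfl⟩ := hb'.2
        rw [Subgroup.subtype_apply, Subgroup.subtype_apply, extz_apply, (hH _).1 ha', zero_mul,
          mul_zero, zero_sub, Pi.neg_apply, Pi.neg_apply, hf, extz_apply]
      have h4 := Submodule.neg_mem _ h3
      refine DOn.congr (f := -(-f)) (fun a _ b' _ => by rw [neg_neg]) h4
  obtain ⟨b, hb⟩ := exists_sym_of_DOn hζ hζL hz x hσ hH hd
  refine ⟨b, ?_⟩
  rw [← hb, ← hy]


end

end Fermat.Agent.CFT
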