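import Mathlib

set_option linter.unusedSectionVars false
set_option linter.unusedVariables false
set_option linter.style.haveILetI false
set_option autoImplicit false

/-!
# Local sums of two squares
-/

namespace Fermat.Agent.CFT.Two

/-- `b` is a sum of two squares in `ℚ_ℓ` -/
def LocSq (ℓ : ℕ) [Fact ℓ.Prime] (b : ℚ) : Prop := ∃ x y : ℚ_[ℓ], x ^ 2 + y ^ 2 = (b : ℚ_[ℓ])

theorem LocSq.mul_sq {ℓ : ℕ} [Fact ℓ.Prime] {b : ℚ} (h : LocSq ℓ b) (c : ℚ) :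
    LocSq ℓ (b * c ^ 2) := by
  obtain ⟨x, y, h⟩ := h
  refine ⟨x * c, y * c, ?_⟩
  push_cast
  rw [← h]; ring

theorem norm_sq_add_sq {ℓ : ℕ} [Fact ℓ.Prime] (h3 : ℓ % 4 = 3) (x y : ℚ_[ℓ]) :
    ‖x ^ 2 + y ^ 2‖ = max (‖x‖ ^ 2) (‖y‖ ^ 2) := by
  -- reduce to units
  have key : ∀ u : ℤ_[ℓ], ‖u‖ = 1 → ‖u ^ 2 + 1‖ = 1 := by
    intro u hu
    by_contra hne
    have hlt : ‖u ^ 2 + 1‖ < 1 := lt_of_le_of_ne (PadicInt.norm_le_one _) hne
    have h0 : PadicInt.toZMod (u ^ 2 + 1) = 0 := by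
      rw [← RingHom.mem_ker, PadicInt.ker_toZMod]
      rw [IsLocalRing.mem_maximalIdeal, mem_nonunits_iff, PadicInt.isUnit_iff]
      exact ne_of_lt hlt
    rw [map_add, map_pow, map_one] at h0
    have h1 : IsSquare (-1 : ZMod ℓ) := ⟨PadicInt.toZMod u, by linear_combination -h0⟩
    rw [ZMod.exists_sq_eq_neg_one_iff] at h1
    exact h1 h3
  rcases lt_trichotomy ‖x‖ ‖y‖ with h | h | h
  · have h' : ‖x ^ 2‖ < ‖y ^ 2‖ := by
      rw [norm_pow, norm_pow]; exact pow_lt_pow_left₀ h (norm_nonneg _) two_ne_zero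
    rw [Padic.add_eq_max_of_ne h'.ne, norm_pow, norm_pow]
  · by_cases hy : y = 0
    · subst hy
      rw [norm_zero, norm_eq_zero] at h
      subst h
      simp
    · have hy' : ‖y‖ ≠ 0 := norm_ne_zero_iff.2 hy
      have hu : ‖x / y‖ = 1 := by rw [norm_div, h, div_self hy']
      have h1 := key ⟨x / y, hu.le⟩ hu
      have h2 : x ^ 2 + y ^ 2 = ((x / y) ^ 2 + 1) * y ^ 2 := by field_simp
      have h3' : ‖(x / y) ^ 2 + 1‖ = 1 := h1
      rw [h2, norm_mul, h3', one_mul, norm_pow, h, max_self]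
  · have h' : ‖y ^ 2‖ < ‖x ^ 2‖ := by
      rw [norm_pow, norm_pow]; exact pow_lt_pow_left₀ h (norm_nonneg _) two_ne_zero
    rw [Padic.add_eq_max_of_ne h'.ne', norm_pow, norm_pow]

theorem even_of_locSq {ℓ : ℕ} [hℓ : Fact ℓ.Prime] (h3 : ℓ % 4 = 3) {n : ℕ} (hn : n ≠ 0)
    (h : LocSq ℓ n) : Even (n.factorization ℓ) := by
  obtain ⟨x, y, h⟩ := h
  have h1 := norm_sq_add_sq h3 x y
  rw [h, Rat.cast_natCast] at h1
  have hn' : (n : ℚ_[ℓ]) ≠ 0 := by exact_mod_cast hn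
  -- the maximum is attained by a non-zero element
  obtain ⟨z, hz⟩ : ∃ z : ℚ_[ℓ], ‖(n : ℚ_[ℓ])‖ = ‖z‖ ^ 2 := by
    rcases max_choice (‖x‖ ^ 2) (‖y‖ ^ 2) with h2 | h2
    · exact ⟨x, h1.trans h2⟩
    · exact ⟨y, h1.trans h2⟩
  have hz0 : z ≠ 0 := by
    rintro rfl
    rw [norm_zero, zero_pow two_ne_zero, norm_eq_zero] at hz
    exact hn' hz
  rw [Padic.norm_eq_zpow_neg_valuation hn', Padic.norm_eq_zpow_neg_valuation hz0, ← zpow_natCast,
    ← zpow_mul] at hz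
  have h4 := zpow_right_injective₀ (by exact_mod_cast hℓ.out.pos : (0 : ℝ) < ℓ)
    (by exact_mod_cast hℓ.out.one_lt.ne') hz
  rw [Padic.valuation_natCast] at h4
  have h5 : ((n.factorization ℓ : ℕ) : ℤ) = 2 * z.valuation := by
    rw [Nat.factorization_def n hℓ.out]
    push_cast at h4 ⊢
    linarith
  have h6 : Even ((n.factorization ℓ : ℕ) : ℤ) := by rw [h5]; exact even_two_mul _
  exact_mod_cast h6

/-- the `2`-adic condition -/
theorem mod_four_of_locSq {e u : ℕ} (hu : Odd u) (h : LocSq 2 ((2 ^ e * u : ℕ) : ℚ)) :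
    u % 4 = 1 := by
  obtain ⟨x, y, h⟩ := h
  -- scaling
  have hn0 : ((2 ^ e * u : ℕ) : ℚ_[2]) ≠ 0 := by
    have : 2 ^ e * u ≠ 0 := mul_ne_zero (pow_ne_zero _ two_ne_zero) (by rintro rfl; simp at hu)
    exact_mod_cast this
  rw [Rat.cast_natCast] at h
  obtain ⟨k, x', y', hx', hy', hmax⟩ : ∃ (k : ℤ) (x' y' : ℤ_[2]), x = 2 ^ k * x' ∧ y = 2 ^ k * y' ∧
      (‖x'‖ = 1 ∨ ‖y'‖ = 1) := by
    have aux : ∀ x y : ℚ_[2], x ≠ 0 → ‖y‖ ≤ ‖x‖ → ∃ (k : ℤ) (x' y' : ℤ_[2]), x = 2 ^ k * x' ∧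
        y = 2 ^ k * y' ∧ ‖x'‖ = 1 := by
      intro x y hx hxy
      have h2 : ‖(2 : ℚ_[2]) ^ x.valuation‖ = ‖x‖ := by
        rw [norm_zpow, show ‖(2 : ℚ_[2])‖ = (2 : ℝ)⁻¹ from by
          simpa using Padic.norm_p (p := 2), Padic.norm_eq_zpow_neg_valuation hx, inv_zpow']
        simp
      have h20 : ((2 : ℚ_[2]) ^ x.valuation) ≠ 0 := zpow_ne_zero _ two_ne_zero
      have hx1 : ‖x / 2 ^ x.valuation‖ = 1 := by
        rw [norm_div, h2, div_self (norm_ne_zero_iff.2 hx)]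
      have hy1 : ‖y / 2 ^ x.valuation‖ ≤ 1 := by
        rw [norm_div, h2, div_le_one (norm_pos_iff.2 hx)]
        exact hxy
      refine ⟨x.valuation, ⟨_, hx1.le⟩, ⟨_, hy1⟩, ?_, ?_, hx1⟩
      · change x = 2 ^ x.valuation * (x / 2 ^ x.valuation)
        field_simp
      · change y = 2 ^ x.valuation * (y / 2 ^ x.valuation)
        field_simp
    rcases le_total ‖y‖ ‖x‖ with hxy | hxy
    · have hx : x ≠ 0 := by
        rintro rfl
        rw [norm_zero, norm_le_zero_iff] at hxy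
        subst hxy
        apply hn0
        rw [← h]; simp
      obtain ⟨k, x', y', h1, h2, h3⟩ := aux x y hx hxy
      exact ⟨k, x', y', h1, h2, Or.inl h3⟩
    · have hy : y ≠ 0 := by
        rintro rfl
        rw [norm_zero, norm_le_zero_iff] at hxy
        subst hxy
        apply hn0
        rw [← h]; simp
      obtain ⟨k, y', x', h1, h2, h3⟩ := aux y x hy hxy
      exact ⟨k, x', y', h2, h1, Or.inr h3⟩
  -- the exponent
  have hu0 : ((u : ℕ) : ℚ_[2]) ≠ 0 := by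
    have : u ≠ 0 := by rintro rfl; simp at hu
    exact_mod_cast this
  have hun : ‖((u : ℕ) : ℚ_[2])‖ = 1 := by
    have h1 : ¬ ((2 : ℕ) : ℤ) ∣ (u : ℤ) := by
      rw [Int.natCast_dvd_natCast, ← even_iff_two_dvd, Nat.not_even_iff_odd]; exact hu
    have h2 := (Padic.norm_intCast_lt_one_iff (p := 2) (k := (u : ℤ))).not.2 h1
    rw [Int.cast_natCast, not_lt] at h2
    refine le_antisymm ?_ h2
    have := Padic.norm_int_le_one (p := 2) (u : ℤ)
    rwa [Int.cast_natCast] at this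
  have hs : ((x' ^ 2 + y' ^ 2 : ℤ_[2]) : ℚ_[2]) = 2 ^ ((e : ℤ) - 2 * k) * (u : ℚ_[2]) := by
    have h20 : ((2 : ℚ_[2]) ^ k) ≠ 0 := zpow_ne_zero _ two_ne_zero
    have h1 : ((2 : ℚ_[2]) ^ k) ^ 2 * (((x' ^ 2 + y' ^ 2 : ℤ_[2]) : ℚ_[2])) = 2 ^ (e : ℤ) * u := by
      push_cast at h ⊢
      rw [hx', hy'] at h
      rw [zpow_natCast, ← h]
      ring
    rw [zpow_sub₀ two_ne_zero, mul_comm (2 : ℤ) k, zpow_mul, zpow_ofNat]
    field_simp
    rw [mul_comm]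
    exact h1
  have hj : 0 ≤ (e : ℤ) - 2 * k := by
    by_contra hneg
    push Not at hneg
    have h1 : ‖((x' ^ 2 + y' ^ 2 : ℤ_[2]) : ℚ_[2])‖ ≤ 1 := PadicInt.norm_le_one _
    rw [hs, norm_mul, hun, mul_one, norm_zpow, show ‖(2 : ℚ_[2])‖ = (2 : ℝ)⁻¹ from by
          simpa using Padic.norm_p (p := 2), inv_zpow', ← not_lt] at h1
    exact h1 (one_lt_zpow₀ (by norm_num) (by omega))
  obtain ⟨j, hj'⟩ := Int.eq_ofNat_of_zero_le hj
  rw [hj', zpow_natCast] at hs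
  have hs' : x' ^ 2 + y' ^ 2 = 2 ^ j * (u : ℤ_[2]) := by
    apply PadicInt.ext
    rw [hs]
    push_cast
    rfl
  have h8 := congrArg (PadicInt.toZModPow 3) hs'
  rw [map_add, map_pow, map_pow, map_mul, map_pow, map_natCast, map_ofNat] at h8
  have hunit : ∀ z : ℤ_[2], ‖z‖ = 1 → (PadicInt.toZModPow 3 z) ^ 2 = 1 := by
    intro z hz
    have h1 : IsUnit (PadicInt.toZModPow 3 z) := (PadicInt.isUnit_iff.2 hz).map _
    have h2 : ∀ w : ZMod (2 ^ 3), IsUnit w → w ^ 2 = 1 := by decide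
    exact h2 _ h1
  have hfin : ∀ (j : ℕ) (X Y : ZMod (2 ^ 3)), X ^ 2 = 1 → X ^ 2 + Y ^ 2 = 2 ^ j * (u : ZMod (2 ^ 3)) →
      u % 4 = 1 := by
    intro j X Y hX hXY
    have hY : Y ^ 2 = 0 ∨ Y ^ 2 = 1 ∨ Y ^ 2 = 4 := by
      have : ∀ Y : ZMod (2 ^ 3), Y ^ 2 = 0 ∨ Y ^ 2 = 1 ∨ Y ^ 2 = 4 := by decide
      exact this Y
    have hu8 : u % 8 = 1 ∨ u % 8 = 3 ∨ u % 8 = 5 ∨ u % 8 = 7 := by
      rcases hu with ⟨t, rfl⟩; omega
    have hcast : (u : ZMod (2 ^ 3)) = ((u % 8 : ℕ) : ZMod (2 ^ 3)) :=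
      (ZMod.natCast_mod u 8).symm
    rw [hX, hcast] at hXY
    rcases j with _ | _ | j
    · rcases hu8 with h1 | h1 | h1 | h1 <;> rw [h1] at hXY <;>
        rcases hY with h2 | h2 | h2 <;> rw [h2] at hXY <;>
        first | omega | (exfalso; revert hXY; decide)
    · rcases hu8 with h1 | h1 | h1 | h1 <;> rw [h1] at hXY <;>
        rcases hY with h2 | h2 | h2 <;> rw [h2] at hXY <;>
        first | omega | (exfalso; revert hXY; decide)
    · exfalso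
      have h4 : (2 : ZMod (2 ^ 3)) ^ (j + 1 + 1) = 4 * 2 ^ j := by rw [pow_succ, pow_succ]; ring
      rw [h4] at hXY
      generalize (2 : ZMod (2 ^ 3)) ^ j = w at hXY
      have hw : ∀ w v : ZMod (2 ^ 3), ¬ (1 + 0 = 4 * w * v) ∧ ¬ (1 + 1 = 4 * w * v) ∧
        ¬ (1 + 4 = 4 * w * v) := by decide
      rcases hY with h2 | h2 | h2 <;> rw [h2] at hXY
      · exact (hw _ _).1 hXY
      · exact (hw _ _).2.1 hXY
      · exact (hw _ _).2.2 hXY
  rcases hmax with hm | hm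
  · exact hfin j _ _ (hunit x' hm) h8
  · rw [add_comm] at h8
    exact hfin j _ _ (hunit y' hm) h8

/-- the key arithmetic fact -/
theorem even_factorization_of_locSq {q : ℕ} (hq : q.Prime) (hq4 : q % 4 = 3) {n : ℕ} (hn : n ≠ 0)
    (h : ∀ (ℓ : ℕ) [Fact ℓ.Prime], ℓ ≠ q → LocSq ℓ n) : Even (n.factorization q) := by
  by_contra hodd
  rw [Nat.not_even_iff_odd] at hodd
  obtain ⟨e, u, hu, hnu⟩ : ∃ e u, Odd u ∧ n = 2 ^ e * u := by
    obtain ⟨e, u, h1, h2⟩ := Nat.exists_eq_two_pow_mul_odd hn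
    exact ⟨e, u, h1, h2⟩
  have hu0 : u ≠ 0 := by rintro rfl; simp at hu
  have hfac : ∀ p, p.Prime → p ≠ 2 → n.factorization p = u.factorization p := by
    intro p hp hp2
    rw [hnu, Nat.factorization_mul (pow_ne_zero _ two_ne_zero) hu0, Nat.factorization_pow,
      Finsupp.add_apply, Finsupp.smul_apply, Nat.Prime.factorization Nat.prime_two,
      Finsupp.single_apply, if_neg (Ne.symm hp2)]
    simp
  haveI : Fact (Nat.Prime 2) := ⟨Nat.prime_two⟩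
  have h1 : u % 4 = 1 := mod_four_of_locSq hu (by rw [← hnu]; exact h 2 (by rintro rfl; omega))
  have h2 : ZMod.χ₄ (u : ZMod 4) = 1 := ZMod.χ₄_nat_one_mod_four h1
  have hq2 : q ≠ 2 := by rintro rfl; omega
  have hqu : q ∈ u.primeFactors := by
    rw [← Nat.support_factorization, Finsupp.mem_support_iff, ← hfac q hq hq2]
    rintro h0
    rw [h0] at hodd
    simp at hodd
  have h3 : ((u : ℕ) : ZMod 4) = ∏ p ∈ u.primeFactors, ((p : ZMod 4)) ^ u.factorization p := by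
    conv_lhs => rw [← Nat.prod_factorization_pow_eq_self hu0]
    rw [Finsupp.prod, Nat.support_factorization]
    push_cast
    rfl
  rw [h3, map_prod, ← Finset.mul_prod_erase _ _ hqu, map_pow, ZMod.χ₄_nat_three_mod_four hq4,
    ← hfac q hq hq2, hodd.neg_one_pow, Finset.prod_eq_one, mul_one] at h2
  · exact absurd h2 (by decide)
  · intro p hp
    rw [Finset.mem_erase] at hp
    have hpp := Nat.prime_of_mem_primeFactors hp.2
    haveI : Fact p.Prime := ⟨hpp⟩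
    have hpu : p ∣ u := Nat.dvd_of_mem_primeFactors hp.2
    have hp2 : p ≠ 2 := by
      rintro rfl
      rcases hu with ⟨t, rfl⟩
      omega
    have hp4 : p % 4 = 1 ∨ p % 4 = 3 := by
      have := hpp.eq_two_or_odd
      omega
    rw [map_pow]
    rcases hp4 with h4 | h4
    · rw [ZMod.χ₄_nat_one_mod_four h4, one_pow]
    · rw [ZMod.χ₄_nat_three_mod_four h4, ← hfac p hpp hp2]
      exact (even_of_locSq h4 hn (h p hp.1)).neg_one_pow

end Fermat.Agent.CFT.Two
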