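import Mathlib
import Fermat.Agent.CFT.Two.Glob
import Fermat.Agent.CFT.Two.SumSq

set_option linter.unusedSectionVars false
set_option linter.unusedVariables false
set_option linter.style.haveILetI false
set_option autoImplicit false

/-!
# Reciprocity for `H²(G_ℚ, ℤ/2)` at one prime `q ≡ 3 mod 4`
-/

open NumberField IsDedekindDomain nonZeroDivisors Pointwise

namespace Fermat.Agent.CFT.Two

open Fermat.Agent.CFT
open Fermat.Agent.LocalF (sym sym_eq_zero_iff Z1_map_mul sym_apply)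
open Fermat.Agent.Frob (below mem_below)

local notation "Om" => AlgebraicClosure ℚ
local notation "Γ" => (AlgebraicClosure ℚ ≃ₐ[ℚ] AlgebraicClosure ℚ)
local notation "L₀" => (⊥ : IntermediateField ℚ (AlgebraicClosure ℚ))

theorem hζ2 : IsPrimitiveRoot (-1 : Om) 2 := IsPrimitiveRoot.neg_one 0 (by norm_num)

theorem hζL : (-1 : Om) ∈ L₀ := neg_mem (one_mem _)

section Basic

variable {G : Type*} [Group G] {𝓛 : Levels G}

theorem zOn_of_mem {p : ℕ} [Fact p.Prime] {U : Subgroup G} {f : G → G → ZMod p}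
    (h : f ∈ Z2 𝓛 (triv p G)) : ZOn 𝓛 U f := by
  refine pp2_mem_Z2 (f := U.subtype) (φ := (LinearMap.id : ZMod p →ₗ[ZMod p] ZMod p)) ?_
    (compat_triv p U.subtype) h
  rintro J hJ
  exact ⟨J, hJ, fun x hx => hx⟩

theorem dOn_of_mem {p : ℕ} [Fact p.Prime] {U : Subgroup G} {f : G → G → ZMod p}
    (h : f ∈ B2 𝓛 (triv p G)) : DOn 𝓛 U f := by
  refine pp2_mem_B2 (f := U.subtype) (φ := (LinearMap.id : ZMod p →ₗ[ZMod p] ZMod p)) ?_
    (compat_triv p U.subtype) h
  rintro J hJ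
  exact ⟨J, hJ, fun x hx => hx⟩

end Basic

section Local

variable {ℓ : ℕ} [hℓ : Fact ℓ.Prime]

/-- elements fixed by the decomposition group lie in `ℚ_ℓ` -/
theorem mem_padic {g : Γ} {z : Om}
    (hz : ∀ u ∈ (g • padicPlace ℓ).decompositionSubgroup ℚ, u z = z) :
    ∃ y : ℚ_[ℓ], algebraMap ℚ_[ℓ] (PadicAlgCl ℓ) y = Loc.jg ℓ g z := by
  have h1 : ∀ τ : (PadicAlgCl ℓ) ≃ₐ[ℚ_[ℓ]] (PadicAlgCl ℓ), τ (Loc.jg ℓ g z) = Loc.jg ℓ g z := by
    intro τ
    rw [← Loc.jg_rg, hz _ (Loc.rg_mem_decomposition ℓ g τ)]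
  have h2 : Loc.jg ℓ g z ∈ (⊥ : IntermediateField ℚ_[ℓ] (PadicAlgCl ℓ)) := by
    rw [InfiniteGalois.mem_bot_iff_fixed]
    exact h1
  exact IntermediateField.mem_bot.1 h2

theorem sq_neg_one_of_fixed {g : Γ} {i : Om} (hi : i ^ 2 = -1)
    (hz : ∀ u ∈ (g • padicPlace ℓ).decompositionSubgroup ℚ, u i = i) :
    ∃ y : ℚ_[ℓ], y ^ 2 = -1 := by
  obtain ⟨y, hy⟩ := mem_padic hz
  refine ⟨y, (algebraMap ℚ_[ℓ] (PadicAlgCl ℓ)).injective ?_⟩
  rw [map_pow, hy, ← map_pow, hi, map_neg, map_one, map_neg, map_one]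

theorem not_fixed_of_three_mod_four (h3 : ℓ % 4 = 3) {g : Γ} {i : Om} (hi : i ^ 2 = -1) :
    ¬ ∀ u ∈ (g • padicPlace ℓ).decompositionSubgroup ℚ, u i = i := by
  intro hz
  obtain ⟨y, hy⟩ := sq_neg_one_of_fixed hi hz
  have h1 := norm_sq_add_sq h3 y 1
  rw [hy, one_pow, neg_add_cancel, norm_zero, norm_one, one_pow] at h1
  have h2 := le_max_right (‖y‖ ^ 2) (1 : ℝ)
  rw [← h1] at h2
  exact absurd h2 (by norm_num)

/-- the local norm criterion -/
theorem locSq_of_cup {g : Γ} {i β : Om} (hi : i ^ 2 = -1) (hβ0 : β ≠ 0) {b : ℚ}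
    (hβ : β ^ 2 = algebraMap ℚ Om b)
    (h : cup (fun u : Loc.UA (g • padicPlace ℓ) L₀ => kummer 2 (-1 : Om) i (u : Γ))
      (fun u : Loc.UA (g • padicPlace ℓ) L₀ => kummer 2 (-1 : Om) β (u : Γ)) ∈
      B2 (Loc.levU (g • padicPlace ℓ) L₀) (triv 2 (Loc.UA (g • padicPlace ℓ) L₀))) :
    LocSq ℓ b := by
  have hi0 : i ≠ 0 := by rintro rfl; norm_num at hi
  have hUA : ∀ u ∈ (g • padicPlace ℓ).decompositionSubgroup ℚ,
      u ∈ Loc.UA (g • padicPlace ℓ) L₀ := fun u hu =>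
    ⟨hu, by rw [IntermediateField.fixingSubgroup_bot]; trivial⟩
  by_cases hfix : ∀ u ∈ (g • padicPlace ℓ).decompositionSubgroup ℚ, u i = i
  · obtain ⟨y, hy⟩ := sq_neg_one_of_fixed hi hfix
    have hy0 : y ≠ 0 := by rintro rfl; norm_num at hy
    refine ⟨((b : ℚ_[ℓ]) + 1) / 2, ((b : ℚ_[ℓ]) - 1) / (2 * y), ?_⟩
    field_simp
    rw [hy]
    ring
  · push Not at hfix
    obtain ⟨σ, hσ, hσi⟩ := hfix
    have hfixi : ∀ u : Γ, u • i ^ 2 = i ^ 2 := fun u => by
      rw [hi, smul_neg, smul_one]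
    have hfixβ : ∀ u : Γ, u • β ^ 2 = β ^ 2 := fun u => by
      rw [hβ]; exact u.commutes b
    have hζ' : ∀ u : Γ, u • (-1 : Om) = -1 := fun u => by rw [smul_neg, smul_one]
    have hκσ : kummer 2 (-1 : Om) i σ = 1 := by
      have h1 : kummer 2 (-1 : Om) i σ ≠ 0 := by
        intro h0
        exact hσi ((kummer_eq_zero_iff hζ2 hi0 (hfixi σ)).1 h0)
      have : ∀ z : ZMod 2, z ≠ 0 → z = 1 := by decide
      exact this _ h1
    have hLC : ((galLevels ℚ Om).restrict (Loc.UA (g • padicPlace ℓ) L₀)).LC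
        (fun u : Loc.UA (g • padicPlace ℓ) L₀ => kummer 2 (-1 : Om) i u) :=
      kummer_LC hζ2 (isGal_Om.restrict _) hi0 (fun u => hζ' u) (fun u => hfixi u)
    let H : Subgroup (Loc.UA (g • padicPlace ℓ) L₀) :=
      { carrier := {u | kummer 2 (-1 : Om) i u = 0}
        one_mem' := by
          change kummer 2 (-1 : Om) i ((1 : Loc.UA (g • padicPlace ℓ) L₀) : Γ) = 0
          exact kummer_of_fixed hζ2 hi0 (one_smul _ _)
        mul_mem' := by
          intro a b ha hb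
          change kummer 2 (-1 : Om) i ((a : Γ) * (b : Γ)) = 0
          have ha' : kummer 2 (-1 : Om) i (a : Γ) = 0 := ha
          have hb' : kummer 2 (-1 : Om) i (b : Γ) = 0 := hb
          exact (kummer_map_mul hζ2 hi0 (hζ' a) (hfixi a) (hfixi b)).trans
            ((congrArg₂ (· + ·) ha' hb').trans (add_zero _))
        inv_mem' := by
          intro a ha
          change kummer 2 (-1 : Om) i ((a : Γ)⁻¹) = 0
          have ha' : (a : Γ) • i = i := (kummer_eq_zero_iff hζ2 hi0 (hfixi a)).1 ha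
          exact kummer_of_fixed hζ2 hi0 (inv_smul_eq_iff.2 ha'.symm) }
    obtain ⟨a, ha1, ha2⟩ := (cup_mem_B2_iff hζ2 (isGal_Om.restrict (Loc.UA (g • padicPlace ℓ) L₀))
      (fun u => hζ' u) (hdiv_Om (p := 2) two_ne_zero) hLC
      (fun u v => kummer_map_mul hζ2 hi0 (hζ' u) (hfixi u) (hfixi v)) (H := H)
      (fun u => Iff.rfl) (σ := ⟨σ, hUA σ hσ⟩) hκσ hβ0 (fun u => hfixβ u)).1 h
    -- the element `a`
    have hHi : ∀ u ∈ (g • padicPlace ℓ).decompositionSubgroup ℚ, u i = i → u a = a := by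
      intro u hu hui
      exact ha1 ⟨u, hUA u hu⟩ (kummer_of_fixed hζ2 hi0 hui)
    have hpm : ∀ u : Γ, u i = i ∨ u i = -i := by
      intro u
      have h1 : (u i) ^ 2 = i ^ 2 := by rw [← map_pow]; exact hfixi u
      exact sq_eq_sq_iff_eq_or_eq_neg.1 h1
    have hσi' : σ i = -i := (hpm σ).resolve_left hσi
    have hcoset : ∀ u ∈ (g • padicPlace ℓ).decompositionSubgroup ℚ, u i = -i →
        u a = σ a ∧ u (σ a) = a := by
      intro u hu hui
      constructor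
      · have h1 := hHi (σ⁻¹ * u) (mul_mem (inv_mem hσ) hu) (by
          rw [AlgEquiv.mul_apply, hui, ← hσi']
          exact AlgEquiv.symm_apply_apply σ i)
        have h2 := congrArg σ h1
        rw [AlgEquiv.mul_apply] at h2
        rw [← h2]
        exact (AlgEquiv.apply_symm_apply σ _).symm
      · have h1 := hHi (u * σ) (mul_mem hu hσ) (by
          rw [AlgEquiv.mul_apply, hσi', map_neg, hui, neg_neg])
        exact h1
    have hcoset' : ∀ u ∈ (g • padicPlace ℓ).decompositionSubgroup ℚ, u i = i →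
        u a = a ∧ u (σ a) = σ a := by
      intro u hu hui
      refine ⟨hHi u hu hui, ?_⟩
      have h1 := (hcoset (u * σ) (mul_mem hu hσ) (by
        rw [AlgEquiv.mul_apply, hσi', map_neg, hui])).1
      exact h1
    have hfx : ∀ u ∈ (g • padicPlace ℓ).decompositionSubgroup ℚ,
        u ((a + σ a) / 2) = (a + σ a) / 2 := by
      intro u hu
      rw [map_div₀, map_add, map_ofNat]
      rcases hpm u with hui | hui
      · rw [(hcoset' u hu hui).1, (hcoset' u hu hui).2]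
      · rw [(hcoset u hu hui).1, (hcoset u hu hui).2, add_comm]
    have hfy : ∀ u ∈ (g • padicPlace ℓ).decompositionSubgroup ℚ,
        u ((a - σ a) / (2 * i)) = (a - σ a) / (2 * i) := by
      intro u hu
      rw [map_div₀, map_sub, map_mul, map_ofNat]
      rcases hpm u with hui | hui
      · rw [(hcoset' u hu hui).1, (hcoset' u hu hui).2, hui]
      · rw [(hcoset u hu hui).1, (hcoset u hu hui).2, hui, mul_neg, div_neg, ← neg_div, neg_sub]
    obtain ⟨X, hX⟩ := mem_padic hfx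
    obtain ⟨Y, hY⟩ := mem_padic hfy
    refine ⟨X, Y, (algebraMap ℚ_[ℓ] (PadicAlgCl ℓ)).injective ?_⟩
    have ha2' : a * σ a = β ^ 2 := by
      rw [Finset.prod_range_succ, Finset.prod_range_one, pow_zero, one_smul, pow_one] at ha2
      exact ha2
    have h2 : ((a + σ a) / 2) ^ 2 + ((a - σ a) / (2 * i)) ^ 2 = β ^ 2 := by
      rw [← ha2']
      field_simp
      rw [hi]
      ring
    rw [map_add, map_pow, map_pow, hX, hY, ← map_pow, ← map_pow, ← map_add, h2, hβ,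
      AlgHom.commutes]
    exact (map_ratCast (algebraMap ℚ_[ℓ] (PadicAlgCl ℓ)) b).symm ▸ (by simp)

end Local

section Global

theorem le_L₀ (U : Subgroup Γ) : U ≤ (L₀ : IntermediateField ℚ Om).fixingSubgroup := by
  rw [IntermediateField.fixingSubgroup_bot]; exact le_top

theorem le_UA (A : ValuationSubring Om) : A.decompositionSubgroup ℚ ≤ Loc.UA A L₀ :=
  le_inf le_rfl (le_L₀ _)

/-- the rational number of an element of `L₀ˣ` -/
theorem exists_rat (y : Additive (L₀ : IntermediateField ℚ Om)ˣ) :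
    ∃ b : ℚ, b ≠ 0 ∧ (((Additive.toMul y : (L₀ : IntermediateField ℚ Om)ˣ) : L₀) : Om) =
      algebraMap ℚ Om b := by
  obtain ⟨b, hb⟩ := IntermediateField.mem_bot.1
    ((Additive.toMul y : (L₀ : IntermediateField ℚ Om)ˣ) : L₀).2
  refine ⟨b, ?_, hb.symm⟩
  rintro rfl
  rw [map_zero] at hb
  exact (Additive.toMul y).ne_zero (Subtype.ext hb.symm)

theorem DOn.sub' {U : Subgroup Γ} {f g : Γ → Γ → ZMod 2} (hf : DOn (galLevels ℚ Om) U f)
    (hg : DOn (galLevels ℚ Om) U g) : DOn (galLevels ℚ Om) U (fun a b => f a b - g a b) :=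
  Submodule.sub_mem _ hf hg

theorem DOn.add' {U : Subgroup Γ} {f g : Γ → Γ → ZMod 2} (hf : DOn (galLevels ℚ Om) U f)
    (hg : DOn (galLevels ℚ Om) U g) : DOn (galLevels ℚ Om) U (fun a b => f a b + g a b) :=
  Submodule.add_mem _ hf hg

/-- **reciprocity at `q ≡ 3 mod 4`** -/
theorem recipQ {q : ℕ} [hq : Fact q.Prime] (hq4 : q % 4 = 3) {f : Γ → Γ → ZMod 2}
    (hf : f ∈ Z2 (galLevels ℚ Om) (triv 2 Γ))
    {c : Γ} {τ : Om →+* ℂ} (hc : ∀ z, τ (c z) = (starRingEnd ℂ) (τ z))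
    (harch : f c c = f 1 1)
    (hloc : ∀ ℓ : ℕ, ℓ.Prime → ℓ ≠ q → ∀ A : ValuationSubring Om, A.LiesOverPrime ℓ →
      DOn (galLevels ℚ Om) (A.decompositionSubgroup ℚ) f)
    (A : ValuationSubring Om) (hA : A.LiesOverPrime q) :
    DOn (galLevels ℚ Om) (A.decompositionSubgroup ℚ) f := by
  obtain ⟨i, hi⟩ : ∃ i : Om, i ^ 2 = -1 := IsAlgClosed.exists_pow_nat_eq (-1) two_pos
  have hi0 : i ≠ 0 := by rintro rfl; norm_num at hi
  have hζ' : ∀ u : Γ, u • (-1 : Om) = -1 := fun u => by rw [smul_neg, smul_one]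
  have hfixi : ∀ u : Γ, u • i ^ 2 = i ^ 2 := fun u => by rw [hi, smul_neg, smul_one]
  set x : KP 2 L₀ := kp 2 L₀ (Additive.ofMul (-1)) with hxdef
  have hxκ : ∀ g : (L₀ : IntermediateField ℚ Om).fixingSubgroup,
      (kum hζ2 hζL x : (L₀ : IntermediateField ℚ Om).fixingSubgroup → ZMod 2) g =
        kummer 2 (-1 : Om) i (g : Γ) := fun g =>
    kumHom_apply hζ2 hζL (by rw [hi]; simp) g
  have hxi : ∀ g : (L₀ : IntermediateField ℚ Om).fixingSubgroup,
      (kum hζ2 hζL x : (L₀ : IntermediateField ℚ Om).fixingSubgroup → ZMod 2) g = 0 →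
        (g : Γ) i = i := by
    intro g hg
    rw [hxκ] at hg
    exact (kummer_eq_zero_iff hζ2 hi0 (hfixi g)).1 hg
  have hx : x ≠ 0 := by
    intro h
    refine not_fixed_of_three_mod_four (ℓ := q) hq4 (g := 1) hi fun u _ => ?_
    refine hxi ⟨u, le_L₀ ⊤ trivial⟩ ?_
    rw [h, map_zero]
    rfl
  have hfz : (fun a b : (L₀ : IntermediateField ℚ Om).fixingSubgroup => f a b) ∈
      Z2 (LL L₀) (triv 2 (L₀ : IntermediateField ℚ Om).fixingSubgroup) := zOn_of_mem hf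
  obtain ⟨y, hy⟩ := exists_sym_glob₂ hζ2 hζL hi x hxi hx
    (H2.mk (LL L₀) (triv 2 (L₀ : IntermediateField ℚ Om).fixingSubgroup) ⟨_, hfz⟩) (by
      intro v hv
      haveI : Fact (lv v).Prime := ⟨lv_prime v⟩
      have hvan := (sv_eq_zero_iff_van hζ2 hζL v x).1 hv
      by_cases hlv : lv v = q
      · exfalso
        obtain ⟨g, hg⟩ := Loc.exists_eq_smul_padicPlace (lv v) (Av_lies v)
        refine not_fixed_of_three_mod_four (ℓ := lv v) (by rw [hlv]; exact hq4) (g := g) hi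
          fun u hu => ?_
        rw [← hg] at hu
        exact hxi ⟨u, le_L₀ ⊤ trivial⟩ (hvan _ hu)
      · rw [locv_eq_zero_iff, resAt_mk_eq_zero]
        exact (hloc (lv v) (lv_prime v) hlv (Av v) (Av_lies v)).mono inf_le_left)
  obtain ⟨y', rfl⟩ := kp_surjective 2 L₀ y
  obtain ⟨b, hb0, hb⟩ := exists_rat y'
  set β : Om := root 2 y' with hβdef
  have hβ : β ^ 2 = algebraMap ℚ Om b := by rw [hβdef, root_pow, hb]
  have hβ0 : β ≠ 0 := root_ne_zero y'
  have hfixβ : ∀ u : Γ, u • β ^ 2 = β ^ 2 := fun u => by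
    rw [hβ]; exact u.commutes b
  rw [sym_apply, H2.mk_eq_mk] at hy
  have hd : DOn (galLevels ℚ Om) (L₀ : IntermediateField ℚ Om).fixingSubgroup
      (fun a b => f a b - kummer 2 (-1 : Om) i a * kummer 2 (-1 : Om) β b) := by
    change (fun a b : _ => _) ∈ _
    convert hy using 1
    funext a b
    change f a b - kummer 2 (-1 : Om) i (a : Γ) * kummer 2 (-1 : Om) β (b : Γ) = f a b -
      (kum hζ2 hζL x : (L₀ : IntermediateField ℚ Om).fixingSubgroup → ZMod 2) a *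
        kummer 2 (-1 : Om) β (b : Γ)
    rw [hxκ]
  have hdU : ∀ U : Subgroup Γ, DOn (galLevels ℚ Om) U
      (fun a b => f a b - kummer 2 (-1 : Om) i a * kummer 2 (-1 : Om) β b) := fun U =>
    hd.mono (le_L₀ U)
  -- local conditions
  have hls : ∀ (ℓ : ℕ) [Fact ℓ.Prime], ℓ ≠ q → LocSq ℓ b := by
    intro ℓ hℓ hne
    refine locSq_of_cup (g := 1) hi hβ0 hβ ?_
    have h1 := (hloc ℓ hℓ.out hne _ (Loc.smul_padicPlace_liesOverPrime ℓ 1)).mono
      (inf_le_left : Loc.UA ((1 : Γ) • padicPlace ℓ) L₀ ≤ _)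
    have h2 := DOn.sub' h1 (hdU _)
    refine (DOn.congr (f' := fun a b => kummer 2 (-1 : Om) i a * kummer 2 (-1 : Om) β b)
      (fun a _ b _ => ?_) h2)
    rw [sub_sub_cancel]
  -- the archimedean condition
  have hpos : 0 < b := by
    obtain ⟨F, hF, hFe⟩ := hd
    have e : ∀ a b : Γ, F ⟨b, le_L₀ ⊤ trivial⟩ - F ⟨a * b, le_L₀ ⊤ trivial⟩ +
        F ⟨a, le_L₀ ⊤ trivial⟩ = f a b - kummer 2 (-1 : Om) i a * kummer 2 (-1 : Om) β b := by
      intro a b
      exact congrFun (congrFun hFe ⟨a, le_L₀ ⊤ trivial⟩) ⟨b, le_L₀ ⊤ trivial⟩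
    have hcc : c * c = 1 := by
      ext z
      apply τ.injective
      rw [AlgEquiv.mul_apply, hc, hc, Complex.conj_conj]
      rfl
    have e1 := e c c
    have e2 := e 1 1
    have e3 : kummer 2 (-1 : Om) i (1 : Γ) = 0 := kummer_of_fixed hζ2 hi0 (one_smul _ _)
    have hci : kummer 2 (-1 : Om) i c = 1 := by
      have h1 : kummer 2 (-1 : Om) i c ≠ 0 := by
        intro h0
        have h2 : c i = i := (kummer_eq_zero_iff hζ2 hi0 (hfixi c)).1 h0
        have h3 := hc i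
        rw [h2] at h3
        have h4 : (τ i) ^ 2 = -1 := by rw [← map_pow, hi, map_neg, map_one]
        have h5 := Complex.conj_eq_iff_im.1 h3.symm
        have h6 := congrArg Complex.re h4
        rw [pow_two, Complex.mul_re, h5] at h6
        norm_num at h6
        nlinarith [mul_self_nonneg (τ i).re]
      have : ∀ z : ZMod 2, z ≠ 0 → z = 1 := by decide
      exact this _ h1
    have e4 : F ⟨c * c, le_L₀ ⊤ trivial⟩ = F ⟨1, le_L₀ ⊤ trivial⟩ := by
      congr 1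
      exact Subtype.ext hcc
    have e5 : F ⟨1 * 1, le_L₀ ⊤ trivial⟩ = F ⟨1, le_L₀ ⊤ trivial⟩ :=
      congrArg F (Subtype.ext (mul_one 1))
    rw [e4, hci, one_mul, harch] at e1
    rw [e5, e3, zero_mul, sub_zero] at e2
    have e6 : kummer 2 (-1 : Om) β c = 0 := by
      have h2 : (2 : ZMod 2) = 0 := by decide
      linear_combination e1 - e2 - (F ⟨c, le_L₀ ⊤ trivial⟩ - F ⟨1, le_L₀ ⊤ trivial⟩) * h2
    have h2 : c β = β := (kummer_eq_zero_iff hζ2 hβ0 (hfixβ c)).1 e6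
    have h3 := hc β
    rw [h2] at h3
    have h5 := Complex.conj_eq_iff_im.1 h3.symm
    have h4 : (τ β) ^ 2 = (b : ℂ) := by
      rw [← map_pow, hβ, eq_ratCast, map_ratCast]
    have h6 := congrArg Complex.re h4
    rw [pow_two, Complex.mul_re, h5, mul_zero, sub_zero, Complex.ratCast_re] at h6
    have h7 : (0 : ℝ) ≤ b := by rw [← h6]; exact mul_self_nonneg _
    exact lt_of_le_of_ne (by exact_mod_cast h7) hb0.symm
  -- the arithmetic
  obtain ⟨n', r, hn', hqn, hr, hbn⟩ : ∃ (n' : ℕ) (r : ℚ), n' ≠ 0 ∧ ¬ q ∣ n' ∧ r ≠ 0 ∧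
      b = n' * r ^ 2 := by
    obtain ⟨n, hn⟩ : ∃ n : ℕ, n = b.num.natAbs * b.den := ⟨_, rfl⟩
    have hden : (b.den : ℚ) ≠ 0 := by exact_mod_cast b.den_ne_zero
    have hnum : ((b.num.natAbs : ℕ) : ℚ) = (b.num : ℚ) := by
      have h1 : ((b.num.natAbs : ℕ) : ℤ) = b.num := Int.natAbs_of_nonneg (Rat.num_nonneg.2 hpos.le)
      rw [← Int.cast_natCast, h1]
    have hnb : (n : ℚ) = b * (b.den : ℚ) ^ 2 := by
      rw [hn, Nat.cast_mul, hnum, ← Rat.mul_den_eq_num b]
      ring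
    have hn0 : n ≠ 0 := by
      rintro rfl
      rw [Nat.cast_zero] at hnb
      exact mul_ne_zero hb0 (pow_ne_zero 2 hden) hnb.symm
    obtain ⟨k, hk⟩ := even_factorization_of_locSq hq.out hq4 hn0 (fun ℓ _ hne => by
      rw [hnb]; exact (hls ℓ hne).mul_sq _)
    have hq0 : (q : ℚ) ≠ 0 := by exact_mod_cast hq.out.ne_zero
    refine ⟨n / q ^ n.factorization q, q ^ k / b.den, ?_, Nat.not_dvd_ordCompl hq.out hn0,
      div_ne_zero (pow_ne_zero _ hq0) hden, ?_⟩
    · intro h0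
      have h1 := Nat.ordProj_mul_ordCompl_eq_self n q
      rw [h0, mul_zero] at h1
      exact hn0 h1.symm
    · have h1 : (q : ℚ) ^ (k + k) * ((n / q ^ n.factorization q : ℕ) : ℚ) = n := by
        have h0 := congrArg (Nat.cast : ℕ → ℚ) (Nat.ordProj_mul_ordCompl_eq_self n q)
        rw [Nat.cast_mul, Nat.cast_pow] at h0
        rw [← hk]
        exact h0
      rw [div_pow, ← pow_mul, mul_two, mul_div_assoc', mul_comm _ ((q : ℚ) ^ (k + k)), h1, hnb]
      field_simp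
  -- replace `β` by a square root of `n'`
  set rΩ : Om := algebraMap ℚ Om r with hrΩ
  have hrΩ0 : rΩ ≠ 0 := by rw [hrΩ]; exact (map_ne_zero _).2 hr
  set γ : Om := β / rΩ with hγdef
  have hγ0 : γ ≠ 0 := div_ne_zero hβ0 hrΩ0
  have hγ : γ ^ 2 = (n' : Om) := by
    rw [hγdef, div_pow, hβ, hbn, map_mul, map_pow, mul_div_cancel_right₀ _ (pow_ne_zero 2 hrΩ0),
      map_natCast]
  have hfixγ : ∀ u : Γ, u • γ ^ 2 = γ ^ 2 := fun u => by rw [hγ]; exact map_natCast u n'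
  have hβγ : ∀ u : Γ, kummer 2 (-1 : Om) β u = kummer 2 (-1 : Om) γ u := by
    intro u
    have h1 : β = γ * rΩ := by rw [hγdef, div_mul_cancel₀ _ hrΩ0]
    have h2 : u • rΩ = rΩ := u.commutes r
    rw [h1, kummer_mul hζ2 hγ0 hrΩ0 (hfixγ u) (by rw [smul_pow', h2]),
      kummer_of_fixed hζ2 hrΩ0 h2, add_zero]
  -- the cup product vanishes at `A`
  have hq2 : 2 ≠ q := by rintro rfl; omega
  have hne1 : ((n' : ℕ) : (L₀ : IntermediateField ℚ Om)) ≠ 0 := by exact_mod_cast hn'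
  set v : HeightOneSpectrum (𝓞 (L₀ : IntermediateField ℚ Om)) := placeBelow L₀ A hq.out hA with hv
  have hord1 : ordH L₀ v (Additive.ofMul (-1)) = 0 := by
    have h1 : (2 : ℕ) • ordH L₀ v (Additive.ofMul (-1)) = 0 := by
      rw [← map_nsmul, ← ofMul_pow, neg_one_sq, ofMul_one, map_zero]
    simpa using h1
  have hord2 : ordH L₀ v (Additive.ofMul (Units.mk0 _ hne1)) = 0 := by
    rw [ordH_eq_zero_iff]
    have h1 : ((n' : ℕ) : (L₀ : IntermediateField ℚ Om)) =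
      algebraMap (𝓞 (L₀ : IntermediateField ℚ Om)) L₀ (n' : 𝓞 (L₀ : IntermediateField ℚ Om)) := by
      rw [map_natCast]
    rw [Units.val_mk0, h1, HeightOneSpectrum.valuation_of_algebraMap,
      HeightOneSpectrum.intValuation_eq_one_iff]
    intro h2
    have h3 : ((q : ℕ) : 𝓞 (L₀ : IntermediateField ℚ Om)) ∈ v.asIdeal :=
      Fermat.Agent.Frob.natCast_mem_below hA
    have h4 : IsCoprime ((n' : ℕ) : ℤ) ((q : ℕ) : ℤ) := by
      rw [Nat.isCoprime_iff_coprime]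
      exact ((Nat.Prime.coprime_iff_not_dvd hq.out).2 hqn).symm
    obtain ⟨s, t, hst⟩ := h4
    apply v.isPrime.ne_top
    rw [Ideal.eq_top_iff_one]
    have h5 : (1 : 𝓞 (L₀ : IntermediateField ℚ Om)) = s * (n' : 𝓞 (L₀ : IntermediateField ℚ Om)) +
        t * (q : 𝓞 (L₀ : IntermediateField ℚ Om)) := by
      exact_mod_cast congrArg (fun z : ℤ => (z : 𝓞 (L₀ : IntermediateField ℚ Om))) hst.symm
    rw [h5]
    exact Ideal.add_mem _ (Ideal.mul_mem_left _ _ h2) (Ideal.mul_mem_left _ _ h3)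
  have hcup := Loc.lp4 (p := 2) L₀ hζ2 hζL hq.out hq2 hA (v := v) rfl (x := -1)
    (x' := Units.mk0 _ hne1) (by rw [hord1]; exact dvd_zero _) (by rw [hord2]; exact dvd_zero _)
    (y := i) (w := γ) (by rw [hi]; simp) (by rw [hγ]; simp)
  have hD : DOn (galLevels ℚ Om) (Loc.UA A L₀) f := by
    have h1 := DOn.add' (hdU (Loc.UA A L₀))
      (g := fun a b => kummer 2 (-1 : Om) i a * kummer 2 (-1 : Om) γ b) hcup
    refine DOn.congr (fun a _ b _ => ?_) h1
    rw [hβγ, sub_add_cancel]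
  exact hD.mono (le_UA A)

end Global

end Fermat.Agent.CFT.Two
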