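import Mathlib
import Fermat.Agent.CFT.Two.RecipQ

set_option linter.unusedSectionVars false
set_option linter.unusedVariables false
set_option linter.style.haveILetI false
set_option autoImplicit false

/-!
# Local lemmas for `H²(D_A, ℤ/2)`
-/

open NumberField IsDedekindDomain nonZeroDivisors Pointwise

namespace Fermat.Agent.CFT.Two

open Fermat.Agent.CFT

local notation "Om" => AlgebraicClosure ℚ
local notation "Γ" => (AlgebraicClosure ℚ ≃ₐ[ℚ] AlgebraicClosure ℚ)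
local notation "L₀" => (⊥ : IntermediateField ℚ (AlgebraicClosure ℚ))

/-- (L-i) cocycles on a decomposition group which are constant modulo inertia are coboundaries -/
theorem dOn_of_unr {p : ℕ} [Fact p.Prime] {ℓ : ℕ} (hℓ : ℓ.Prime) {A : ValuationSubring Om}
    (hA : A.LiesOverPrime ℓ) {f : Γ → Γ → ZMod p}
    (hf : ZOn (galLevels ℚ Om) (A.decompositionSubgroup ℚ) f)
    (h1 : ∀ g ∈ A.decompositionSubgroup ℚ, ∀ h ∈ A.decompositionSubgroup ℚ,
      ∀ u ∈ A.inertiaSubgroupIn ℚ, f (g * u) h = f g h)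
    (h2 : ∀ g ∈ A.decompositionSubgroup ℚ, ∀ h ∈ A.decompositionSubgroup ℚ,
      ∀ u ∈ A.inertiaSubgroupIn ℚ, f g (h * u) = f g h) :
    DOn (galLevels ℚ Om) (A.decompositionSubgroup ℚ) f := by
  have hpp : p.Prime := Fact.out
  haveI : Fact ℓ.Prime := ⟨hℓ⟩
  obtain ⟨g, rfl⟩ := Loc.exists_eq_smul_padicPlace ℓ hA
  have hz : ZOn (galLevels ℚ Om) (Loc.UA (g • padicPlace ℓ) L₀) f := hf.mono inf_le_left
  suffices h : DOn (galLevels ℚ Om) (Loc.UA (g • padicPlace ℓ) L₀) f from h.mono (le_UA _)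
  change (fun u u' : Loc.UA (g • padicPlace ℓ) L₀ => f u u') ∈
    B2 (Loc.levU (g • padicPlace ℓ) L₀) (triv p (Loc.UA (g • padicPlace ℓ) L₀))
  rw [(Loc.homeo_eU ℓ L₀ g).mem_B2_iff (ρ' := triv p (Loc.KL ℓ L₀ g).fixingSubgroup)
    (fun _ _ => rfl)]
  apply Loc.B2_unrLev_le
  refine Loc.unr_mem_B2 (p := p) hpp.ne_zero (fun v => ?_) (Loc.KL ℓ L₀ g)
    ⟨⊤, Levels.top_mem, fun s _ => rfl⟩ ?_
  · rw [nsmul_eq_mul, CharP.cast_eq_zero, zero_mul]
  · obtain ⟨⟨H, hH, hc⟩, hcoc⟩ := hz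
    have hrg : ∀ τ : (Loc.KL ℓ L₀ g).fixingSubgroup, Loc.rg ℓ g (τ : Loc.GalLoc ℓ) ∈
      (g • padicPlace ℓ).decompositionSubgroup ℚ := fun τ => Loc.rg_mem_decomposition ℓ g _
    let J : Subgroup (Loc.KL ℓ L₀ g).fixingSubgroup :=
      { carrier := {s | (∀ τ τ' : (Loc.KL ℓ L₀ g).fixingSubgroup,
          f (Loc.eU ℓ L₀ g (τ * s)) (Loc.eU ℓ L₀ g τ') = f (Loc.eU ℓ L₀ g τ) (Loc.eU ℓ L₀ g τ')) ∧
          ∀ τ τ' : (Loc.KL ℓ L₀ g).fixingSubgroup,
          f (Loc.eU ℓ L₀ g τ) (Loc.eU ℓ L₀ g (τ' * s)) = f (Loc.eU ℓ L₀ g τ) (Loc.eU ℓ L₀ g τ')}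
        one_mem' := by
          constructor <;> intro τ τ' <;> rw [mul_one]
        mul_mem' := by
          rintro a b ⟨ha1, ha2⟩ ⟨hb1, hb2⟩
          constructor
          · intro τ τ'
            rw [← mul_assoc, hb1, ha1]
          · intro τ τ'
            rw [← mul_assoc, hb2, ha2]
        inv_mem' := by
          rintro a ⟨ha1, ha2⟩
          constructor
          · intro τ τ'
            rw [← ha1 (τ * a⁻¹), inv_mul_cancel_right]
          · intro τ τ'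
            rw [← ha2 τ (τ' * a⁻¹), inv_mul_cancel_right] }
    have hJH : H.comap (Loc.eU ℓ L₀ g : (Loc.KL ℓ L₀ g).fixingSubgroup →*
        Loc.UA (g • padicPlace ℓ) L₀) ≤ J := by
      intro s hs
      have hs' : Loc.eU ℓ L₀ g s ∈ H := hs
      constructor
      · intro τ τ'
        have := hc (Loc.eU ℓ L₀ g τ) (Loc.eU ℓ L₀ g τ') _ hs' 1 (one_mem _)
        rw [mul_one] at this
        rw [map_mul]
        exact this
      · intro τ τ'
        have := hc (Loc.eU ℓ L₀ g τ) (Loc.eU ℓ L₀ g τ') 1 (one_mem _) _ hs'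
        rw [mul_one] at this
        rw [map_mul]
        exact this
    refine ⟨⟨J, ⟨?_, ?_⟩, ?_⟩, ?_⟩
    · exact Levels.up_mem (((Loc.homeo_eU ℓ L₀ g) _).1 hH) hJH
    · intro τ hτ
      have hI : Loc.rg ℓ g (τ : Loc.GalLoc ℓ) ∈ (g • padicPlace ℓ).inertiaSubgroupIn ℚ :=
        (Loc.rg_mem_inertia_iff ℓ g _).2 hτ
      constructor
      · intro a b
        have := h1 _ (hrg a) _ (hrg b) _ hI
        rw [map_mul]
        exact this
      · intro a b
        have := h2 _ (hrg a) _ (hrg b) _ hI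
        rw [map_mul]
        exact this
    · intro τ τ' s hs s' hs'
      exact (hs.1 τ (τ' * s')).trans (hs'.2 τ τ')
    · intro τ τ' τ''
      have := hcoc (Loc.eU ℓ L₀ g τ) (Loc.eU ℓ L₀ g τ') (Loc.eU ℓ L₀ g τ'')
      rw [← map_mul, ← map_mul] at this
      exact this

/-- (L-i), global form -/
theorem dOn_of_unr' {p : ℕ} [Fact p.Prime] {ℓ : ℕ} (hℓ : ℓ.Prime) {A : ValuationSubring Om}
    (hA : A.LiesOverPrime ℓ) {f : Γ → Γ → ZMod p}
    (hf : f ∈ Z2 (galLevels ℚ Om) (triv p Γ))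
    (h1 : ∀ g ∈ A.decompositionSubgroup ℚ, ∀ h ∈ A.decompositionSubgroup ℚ,
      ∀ u ∈ A.inertiaSubgroupIn ℚ, f (g * u) h = f g h)
    (h2 : ∀ g ∈ A.decompositionSubgroup ℚ, ∀ h ∈ A.decompositionSubgroup ℚ,
      ∀ u ∈ A.inertiaSubgroupIn ℚ, f g (h * u) = f g h) :
    DOn (galLevels ℚ Om) (A.decompositionSubgroup ℚ) f :=
  dOn_of_unr hℓ hA (zOn_of_mem hf) h1 h2

/-- (L-iii) the cup product of the unramified character with a ramified one does not vanish -/
theorem eq_zero_on_inertia_of_cup {q : ℕ} (hq : q.Prime) (hq2 : q ≠ 2) {A : ValuationSubring Om}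
    (hA : A.LiesOverPrime q) {η y : A.decompositionSubgroup ℚ → ZMod 2}
    (hη : ((galLevels ℚ Om).restrict (A.decompositionSubgroup ℚ)).LC η)
    (hηm : ∀ g h, η (g * h) = η g + η h)
    (hy : ((galLevels ℚ Om).restrict (A.decompositionSubgroup ℚ)).LC y)
    (hym : ∀ g h, y (g * h) = y g + y h)
    (hηI : ∀ u : A.decompositionSubgroup ℚ, (u : Γ) ∈ A.inertiaSubgroupIn ℚ → η u = 0)
    {φ : A.decompositionSubgroup ℚ} (hφ : η φ = 1)
    (hcup : (fun g h : A.decompositionSubgroup ℚ => η g * y h) ∈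
      B2 ((galLevels ℚ Om).restrict (A.decompositionSubgroup ℚ))
        (triv 2 (A.decompositionSubgroup ℚ)))
    (u : A.decompositionSubgroup ℚ) (hu : (u : Γ) ∈ A.inertiaSubgroupIn ℚ) : y u = 0 := by
  haveI : Fact q.Prime := ⟨hq⟩
  obtain ⟨g, rfl⟩ := Loc.exists_eq_smul_padicPlace q hA
  have hζ' : ∀ u : (g • padicPlace q).decompositionSubgroup ℚ, u • (-1 : Om) = -1 := fun u => by
    rw [smul_neg, smul_one]
  obtain ⟨β, hβ0, hβ, rfl⟩ := exists_kummer_eq hζ2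
    (isGal_Om.restrict ((g • padicPlace q).decompositionSubgroup ℚ)) hζ' hy hym
  let H : Subgroup ((g • padicPlace q).decompositionSubgroup ℚ) :=
    { carrier := {u | η u = 0}
      one_mem' := by
        have := hηm 1 1
        rw [mul_one] at this
        change η 1 = 0
        linear_combination -this
      mul_mem' := by
        intro a b ha hb
        change η (a * b) = 0
        rw [hηm, show η a = 0 from ha, show η b = 0 from hb, add_zero]
      inv_mem' := by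
        intro a ha
        have h1 := hηm 1 1
        rw [mul_one] at h1
        have h2 := hηm a a⁻¹
        rw [mul_inv_cancel, show η a = 0 from ha] at h2
        change η a⁻¹ = 0
        linear_combination -h1 - h2 }
  obtain ⟨a, ha1, ha2⟩ := (cup_mem_B2_iff hζ2
    (isGal_Om.restrict ((g • padicPlace q).decompositionSubgroup ℚ)) hζ'
    (hdiv_Om (p := 2) two_ne_zero) hη hηm (H := H) (fun u => Iff.rfl) (σ := φ) hφ hβ0 hβ).1 hcup
  rw [Finset.prod_range_succ, Finset.prod_range_one, pow_zero, one_smul, pow_one] at ha2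
  have ha0 : a ≠ 0 := by
    rintro rfl
    rw [zero_mul] at ha2
    exact pow_ne_zero 2 hβ0 ha2.symm
  obtain ⟨n, hn⟩ := Loc.exists_norm_jg_of_inertia q g ha0 (by
    intro τ hτ
    have hτD : τ ∈ (g • padicPlace q).decompositionSubgroup ℚ := by
      obtain ⟨τ', hτ', rfl⟩ := hτ
      exact τ'.2
    exact ha1 ⟨τ, hτD⟩ (hηI ⟨τ, hτD⟩ hτ))
  have hnorm : ∀ (u : Γ), u ∈ (g • padicPlace q).decompositionSubgroup ℚ → ∀ z : Om,
      ‖Loc.jg q g (u z)‖ = ‖Loc.jg q g z‖ := by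
    intro u hu z
    rw [← Loc.range_rg] at hu
    obtain ⟨τ, rfl⟩ := hu
    rw [Loc.jg_rg, Loc.norm_apply]
  have hnβ : ‖Loc.jg q g β‖ = ‖((q : PadicAlgCl q)) ^ n‖ := by
    rw [norm_zpow]
    have h1 : ‖Loc.jg q g β‖ ^ 2 = (‖(q : PadicAlgCl q)‖ ^ n) ^ 2 := by
      rw [← norm_pow, ← map_pow, ← ha2, map_mul, norm_mul, hn]
      have h2 : ‖Loc.jg q g (φ • a)‖ = ‖Loc.jg q g a‖ := hnorm φ φ.2 a
      rw [h2, hn, pow_two]
    exact (pow_left_inj₀ (norm_nonneg _) (zpow_nonneg (norm_nonneg _) _) two_ne_zero).1 h1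
  obtain ⟨τ, hτ⟩ : ∃ τ, Loc.rg q g τ = (u : Γ) := by
    have h1 : (u : Γ) ∈ (Loc.rg q g).range := by
      rw [Loc.range_rg]
      exact u.2
    exact h1
  rw [← hτ, Loc.rg_mem_inertia_iff] at hu
  obtain ⟨b, hb⟩ := mem_padic (ℓ := q) (g := g) (z := β ^ 2) (fun u hu => hβ ⟨u, hu⟩)
  have hfix := Loc.apply_eq_of_mem_inertia (K := (⊥ : IntermediateField ℚ_[q] (PadicAlgCl q)))
    Nat.prime_two (Ne.symm hq2) (y := Loc.jg q g β) (z := (q : PadicAlgCl q) ^ n)
    (zpow_mem (natCast_mem _ q) n) (IntermediateField.mem_bot.2 ⟨b, by rw [hb, map_pow]⟩) hnβ hu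
    (by rw [IntermediateField.fixingSubgroup_bot]; trivial)
  rw [← Loc.jg_rg, hτ] at hfix
  exact kummer_of_fixed hζ2 hβ0 (Loc.jg_injective q g hfix)

end Fermat.Agent.CFT.Two
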